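import Mathlib
import Fermat.Prelude.Def_FLTPrelim_Ramification

/-!
# MOONSHOT S52, block K1, leaf E (GENUS 0): the seam between the elliptic-curve side and the
function-field side

`k` an algebraically closed field of characteristic `0` (`k = Qb`), `Fb` an algebraically closed
field over `k`, `t : Fb` transcendental over `k` with `Fb` algebraic over `k(t)`.  "Inertia" = the
Prelude's `ValuationSubring.inertiaSubgroupIn` for the base field `↥k⟮t⟯`, at valuation subrings `O`
of `Fb` containing the constants.

* `ECore1` : a finitely generated intermediate field `k(t) ≤ M ≤ Fb` on which the inertia groups of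
  all `O` NOT centred at `t = α` or `t = β` act trivially is a rational function field `k(w)`
  (Riemann–Hurwitz: unramified outside two points of the `t`-line ⇒ genus `0`).
* `ECore2` : an element of `Fb` fixed by the inertia groups of ALL `O` lies in `k(t)`
  (the `t`-line is simply connected).

Producer: the FF side (bridge `SW/Bridge` + `SW/FFG`).  Consumer: `SW/K1c/EGal`, which proves the
hypotheses for `M = k(t, X(tateNF t [5]))` from `SW/K1c/Unram`.
-/

set_option autoImplicit false

open IntermediateField

namespace Fermat.Agent.SW.K1c.EContract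

/-- **E-core 1**: unramified outside `t = α, β` ⇒ rational. -/
def ECore1 : Prop :=
  ∀ (k Fb : Type) [Field k] [Field Fb] [Algebra k Fb] [IsAlgClosed k] [CharZero k]
    [IsAlgClosed Fb] (t : Fb), Transcendental k t → (∀ x : Fb, IsAlgebraic ↥k⟮t⟯ x) →
    ∀ (M : IntermediateField k Fb) (s : Finset Fb), M = IntermediateField.adjoin k (insert t (s : Set Fb)) →
    ∀ α β : k,
      (∀ O : ValuationSubring Fb, (∀ z : k, algebraMap k Fb z ∈ O) →
        ¬ O.valuation ((t - algebraMap k Fb α) * (t - algebraMap k Fb β)) < 1 →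
        ∀ σ ∈ O.inertiaSubgroupIn ↥k⟮t⟯, ∀ z ∈ M, σ z = z) →
      ∃ w ∈ M, ∀ z ∈ M, z ∈ k⟮w⟯

/-- **E-core 2**: fixed by every inertia group ⇒ in `k(t)`. -/
def ECore2 : Prop :=
  ∀ (k Fb : Type) [Field k] [Field Fb] [Algebra k Fb] [IsAlgClosed k] [CharZero k]
    [IsAlgClosed Fb] (t : Fb), Transcendental k t → (∀ x : Fb, IsAlgebraic ↥k⟮t⟯ x) →
    ∀ x : Fb,
      (∀ O : ValuationSubring Fb, (∀ z : k, algebraMap k Fb z ∈ O) →
        ∀ σ ∈ O.inertiaSubgroupIn ↥k⟮t⟯, σ x = x) →
      x ∈ k⟮t⟯

end Fermat.Agent.SW.K1c.EContract
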