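import Fermat.Agent.LR.VarChangePoint

/-!
# MOONSHOT S52 (finding #1435), block K1c, leaf (T): the Tate normal form of a point of order 5

`K` a field, `W` a Weierstrass curve over `K` (any model), `P = (x₀, y₀)` a nonsingular point of
exact order `5`.  Then there are `C : VariableChange K` with `C.r = x₀`, `C.t = y₀` (so that the
point `(0, 0)` of `C • W` is mapped to `P` by `LR.VarChangePoint.pointEquiv W C`) and `t : K` with

  `C • W = tateNF t`,   `tateNF t : y² + (1 - t) x y - t y = x³ - t x²`.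

Also: ring identities for the invariants of `tateNF t` (`Δ = t⁵ (t² - 11 t - 1)`,
`c₄ = t⁴ - 12 t³ + 14 t² + 12 t + 1`), and the converse: on `tateNF t` with `t ≠ 0` the point
`(0, 0)` is nonsingular of exact order `5`.

All characteristics.  Mathlib + `LR/VarChangePoint` (the action of a change of variables on
points) only.
-/

set_option autoImplicit false
set_option linter.unusedSectionVars false

namespace Fermat.Agent.SW.K1c.TateNF

open WeierstrassCurve WeierstrassCurve.Affine Fermat.Agent.LR.VarChangePoint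

/-- The Tate normal form `y² + (1 - c) x y - b y = x³ - b x²`. -/
def tateBC {K : Type*} [CommRing K] (b c : K) : WeierstrassCurve K := ⟨1 - c, -b, -b, 0, 0⟩

/-- The Tate normal form of a point of order `5`: `y² + (1 - t) x y - t y = x³ - t x²`. -/
def tateNF {K : Type*} [CommRing K] (t : K) : WeierstrassCurve K := ⟨1 - t, -t, -t, 0, 0⟩

theorem tateBC_self {K : Type*} [CommRing K] (t : K) : tateBC t t = tateNF t := rfl

section Coeffs

variable {K : Type*} [CommRing K] (b c : K)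

@[simp] theorem tateBC_a₁ : (tateBC b c).a₁ = 1 - c := rfl
@[simp] theorem tateBC_a₂ : (tateBC b c).a₂ = -b := rfl
@[simp] theorem tateBC_a₃ : (tateBC b c).a₃ = -b := rfl
@[simp] theorem tateBC_a₄ : (tateBC b c).a₄ = 0 := rfl
@[simp] theorem tateBC_a₆ : (tateBC b c).a₆ = 0 := rfl

end Coeffs

section Invariants

variable {K : Type*} [CommRing K] (t : K)

theorem tateNF_Δ : (tateNF t).Δ = t ^ 5 * (t ^ 2 - 11 * t - 1) := by
  simp only [tateNF, WeierstrassCurve.Δ, WeierstrassCurve.b₂, WeierstrassCurve.b₄,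
    WeierstrassCurve.b₆, WeierstrassCurve.b₈]
  ring

theorem tateNF_c₄ : (tateNF t).c₄ = t ^ 4 - 12 * t ^ 3 + 14 * t ^ 2 + 12 * t + 1 := by
  simp only [tateNF, WeierstrassCurve.c₄, WeierstrassCurve.b₂, WeierstrassCurve.b₄]
  ring

theorem tateNF_c₆ : (tateNF t).c₆ =
    -(t ^ 6 - 18 * t ^ 5 + 75 * t ^ 4 + 75 * t ^ 2 + 18 * t + 1) := by
  simp only [tateNF, WeierstrassCurve.c₆, WeierstrassCurve.b₂, WeierstrassCurve.b₄,
    WeierstrassCurve.b₆]
  ring

end Invariants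

/-! ### The group law near the point `(0, 0)` -/

section GroupLaw

variable {K : Type*} [Field K] [DecidableEq K] (V : WeierstrassCurve K)

/-- `(0, 0)` lies on `V` iff `a₆ = 0`. -/
theorem equation_zero_iff : V.toAffine.Equation 0 0 ↔ V.a₆ = 0 := by
  rw [Affine.equation_iff]
  constructor
  · intro h
    have : V.a₆ = 0 := by
      have h' := h
      simp only [ne_eq, OfNat.ofNat_ne_zero, not_false_eq_true, zero_pow, mul_zero, add_zero,
        zero_add] at h'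
      exact h'.symm
    exact this
  · intro h
    rw [h]; ring

/-- **(L1)** If `(0, 0)` is a point with `2 • (0,0) ≠ 0` then `a₃ ≠ 0`. -/
theorem a₃_ne_zero_of_two_nsmul_ne_zero (h0 : V.toAffine.Nonsingular 0 0)
    (h2 : (2 : ℕ) • (Point.some 0 0 h0 : V.toAffine.Point) ≠ 0) : V.a₃ ≠ 0 := by
  intro h3
  apply h2
  rw [two_nsmul]
  apply Point.add_self_of_Y_eq
  simp [Affine.negY, h3]

/-- **(L2)** If `a₄ = a₆ = 0` and `3 • (0,0) ≠ 0` then `a₂ ≠ 0`. -/
theorem a₂_ne_zero_of_three_nsmul_ne_zero (h0 : V.toAffine.Nonsingular 0 0) (h4 : V.a₄ = 0)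
    (ha₃ : V.a₃ ≠ 0)
    (h3 : (3 : ℕ) • (Point.some 0 0 h0 : V.toAffine.Point) ≠ 0) : V.a₂ ≠ 0 := by
  intro h2
  apply h3
  have hy : (0 : K) ≠ V.toAffine.negY 0 0 := by
    simp only [Affine.negY, mul_zero, sub_zero, neg_zero, zero_sub]
    exact fun h => ha₃ (neg_eq_zero.mp h.symm)
  -- `2 • Q = - Q`
  have hdouble : (Point.some 0 0 h0 : V.toAffine.Point) + Point.some 0 0 h0 =
      -(Point.some 0 0 h0) := by
    rw [Point.add_self_of_Y_ne hy, Point.neg_some]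
    have hs : V.toAffine.slope 0 0 0 0 = 0 := by
      rw [Affine.slope_of_Y_ne rfl hy]
      simp [h4]
    simp only [Point.some.injEq]
    refine ⟨?_, ?_⟩
    · simp [Affine.addX, hs, h2]
    · simp [Affine.addY, Affine.negAddY, Affine.addX, Affine.negY, hs, h2]
  rw [show (3 : ℕ) = 2 + 1 from rfl, add_nsmul, two_nsmul, one_nsmul, hdouble, neg_add_cancel]

/-- On `tateBC b c` with `b ≠ 0`: `2 • (0,0) = (b, b c)`. -/
theorem tateBC_two_nsmul {b c : K} (hb : b ≠ 0) (h0 : (tateBC b c).toAffine.Nonsingular 0 0) :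
    ∃ h2 : (tateBC b c).toAffine.Nonsingular b (b * c),
      (2 : ℕ) • (Point.some 0 0 h0 : (tateBC b c).toAffine.Point) = Point.some b (b * c) h2 := by
  have hy : (0 : K) ≠ (tateBC b c).toAffine.negY 0 0 := by
    simp only [Affine.negY, tateBC_a₁, tateBC_a₃, mul_zero, sub_zero, neg_zero, zero_sub, neg_neg]
    exact fun h => hb h.symm
  have hs : (tateBC b c).toAffine.slope 0 0 0 0 = 0 := by
    rw [Affine.slope_of_Y_ne rfl hy]
    simp
  have hX : (tateBC b c).toAffine.addX 0 0 ((tateBC b c).toAffine.slope 0 0 0 0) = b := by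
    rw [hs]
    simp [Affine.addX]
  have hY : (tateBC b c).toAffine.addY 0 0 0 ((tateBC b c).toAffine.slope 0 0 0 0) = b * c := by
    rw [Affine.addY, Affine.negAddY, hX, hs]
    simp only [Affine.negY, tateBC_a₁, tateBC_a₃]
    ring
  have hns := Affine.nonsingular_add h0 h0 fun hxy => hy hxy.right
  rw [hX, hY] at hns
  refine ⟨hns, ?_⟩
  rw [two_nsmul, Point.add_self_of_Y_ne hy]
  simp only [Point.some.injEq]
  exact ⟨hX, hY⟩

/-- On `tateBC b c` with `b ≠ 0`: `3 • (0,0) = (c, b - c)`. -/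
theorem tateBC_three_nsmul {b c : K} (hb : b ≠ 0) (h0 : (tateBC b c).toAffine.Nonsingular 0 0) :
    ∃ h3 : (tateBC b c).toAffine.Nonsingular c (b - c),
      (3 : ℕ) • (Point.some 0 0 h0 : (tateBC b c).toAffine.Point) = Point.some c (b - c) h3 := by
  obtain ⟨h2, e2⟩ := tateBC_two_nsmul hb h0
  have hs : (tateBC b c).toAffine.slope b 0 (b * c) 0 = c := by
    rw [Affine.slope_of_X_ne hb]
    field_simp
    ring
  have hX : (tateBC b c).toAffine.addX b 0 ((tateBC b c).toAffine.slope b 0 (b * c) 0) = c := by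
    rw [hs]
    simp only [Affine.addX, tateBC_a₁, tateBC_a₂]
    ring
  have hY : (tateBC b c).toAffine.addY b 0 (b * c)
      ((tateBC b c).toAffine.slope b 0 (b * c) 0) = b - c := by
    rw [Affine.addY, Affine.negAddY, hX, hs]
    simp only [Affine.negY, tateBC_a₁, tateBC_a₃]
    ring
  have hns := Affine.nonsingular_add h2 h0 fun hxy => hb hxy.left
  rw [hX, hY] at hns
  refine ⟨hns, ?_⟩
  rw [show (3 : ℕ) = 2 + 1 from rfl, add_nsmul, one_nsmul, e2, Point.add_of_X_ne hb]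
  simp only [Point.some.injEq]
  exact ⟨hX, hY⟩

/-- **(L3)** On `tateBC b c` with `b ≠ 0`: if `5 • (0,0) = 0` then `b = c`. -/
theorem tateBC_eq_of_five_nsmul {b c : K} (hb : b ≠ 0)
    (h0 : (tateBC b c).toAffine.Nonsingular 0 0)
    (h5 : (5 : ℕ) • (Point.some 0 0 h0 : (tateBC b c).toAffine.Point) = 0) : b = c := by
  obtain ⟨h2, e2⟩ := tateBC_two_nsmul hb h0
  obtain ⟨h3, e3⟩ := tateBC_three_nsmul hb h0
  have hsum : (3 : ℕ) • (Point.some 0 0 h0 : (tateBC b c).toAffine.Point) +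
      (2 : ℕ) • (Point.some 0 0 h0 : (tateBC b c).toAffine.Point) = 0 := by
    rw [← add_nsmul]; exact h5
  rw [e2, e3] at hsum
  have hneg := eq_neg_of_add_eq_zero_left hsum
  rw [Point.neg_some] at hneg
  simp only [Point.some.injEq] at hneg
  exact hneg.1.symm

/-- Conversely, on `tateNF t` with `t ≠ 0` the point `(0,0)` is killed by `5`. -/
theorem tateNF_five_nsmul {t : K} (ht : t ≠ 0) (h0 : (tateNF t).toAffine.Nonsingular 0 0) :
    (5 : ℕ) • (Point.some 0 0 h0 : (tateNF t).toAffine.Point) = 0 := by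
  have h0' : (tateBC t t).toAffine.Nonsingular 0 0 := h0
  obtain ⟨h2, e2⟩ := tateBC_two_nsmul ht h0'
  obtain ⟨h3, e3⟩ := tateBC_three_nsmul ht h0'
  change (5 : ℕ) • (Point.some 0 0 h0' : (tateBC t t).toAffine.Point) = 0
  rw [show (5 : ℕ) = 3 + 2 from rfl, add_nsmul, e2, e3]
  apply Point.add_of_Y_eq
  · rfl
  · simp only [Affine.negY, tateBC_a₁, tateBC_a₃]
    ring

/-- `(0, 0)` is a nonsingular point of `tateNF t` for `t ≠ 0`. -/
theorem tateNF_nonsingular_zero {t : K} (ht : t ≠ 0) : (tateNF t).toAffine.Nonsingular 0 0 := by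
  rw [Affine.nonsingular_iff]
  refine ⟨(equation_zero_iff _).mpr rfl, Or.inr ?_⟩
  change (0 : K) ≠ -0 - (tateNF t).a₁ * 0 - (tateNF t).a₃
  simp only [tateNF, mul_zero, sub_zero, neg_zero, zero_sub, neg_neg]
  exact fun h => ht h.symm

/-- On `tateNF t`, `t ≠ 0`, the point `(0, 0)` has exact order `5`. -/
theorem tateNF_addOrderOf {t : K} (ht : t ≠ 0) :
    addOrderOf (Point.some 0 0 (tateNF_nonsingular_zero ht) : (tateNF t).toAffine.Point) = 5 := by
  have : Fact (Nat.Prime 5) := ⟨by norm_num⟩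
  exact addOrderOf_eq_prime (tateNF_five_nsmul ht _) (Point.some_ne_zero _)

end GroupLaw

/-! ### The normal form -/

section Main

variable {K : Type*} [Field K] [DecidableEq K] (W : WeierstrassCurve K)

/-- For a change of variables with `r = x₀`, `t = y₀`, the point `(0, 0)` of `C • W` corresponds
to the point `(x₀, y₀)` of `W`. -/
theorem exists_zero_point {x₀ y₀ : K} (h : W.toAffine.Nonsingular x₀ y₀) (C : VariableChange K)
    (hr : C.r = x₀) (ht : C.t = y₀) :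
    ∃ h0 : (C • W).toAffine.Nonsingular 0 0,
      Fermat.Agent.LR.VarChangePoint.pointEquiv W C (Point.some 0 0 h0) = Point.some x₀ y₀ h := by
  have hX : vcX C 0 = x₀ := by simp [vcX, hr]
  have hY : vcY C 0 0 = y₀ := by simp [vcY, ht]
  have h0 : (C • W).toAffine.Nonsingular 0 0 := by
    rw [← vc_nonsingular, hX, hY]; exact h
  refine ⟨h0, ?_⟩
  rw [Fermat.Agent.LR.VarChangePoint.pointEquiv_some]
  simp only [Point.some.injEq]
  exact ⟨hX, hY⟩

theorem nsmul_zero_point_iff {x₀ y₀ : K} (h : W.toAffine.Nonsingular x₀ y₀)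
    (C : VariableChange K) (h0 : (C • W).toAffine.Nonsingular 0 0)
    (e : Fermat.Agent.LR.VarChangePoint.pointEquiv W C (Point.some 0 0 h0) =
      Point.some x₀ y₀ h) (n : ℕ) :
    n • (Point.some 0 0 h0 : (C • W).toAffine.Point) = 0 ↔
      n • (Point.some x₀ y₀ h : W.toAffine.Point) = 0 := by
  rw [← e, ← map_nsmul]
  exact (AddEquiv.map_eq_zero_iff (Fermat.Agent.LR.VarChangePoint.pointEquiv W C)).symm

/-- The change of variables `(u, x₀, s, y₀)`. -/
def vc (u : Kˣ) (x₀ s y₀ : K) : VariableChange K := ⟨u, x₀, s, y₀⟩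

theorem vc_a₂ (u : Kˣ) (x₀ s y₀ : K) :
    (vc u x₀ s y₀ • W).a₂ = ((u⁻¹ : Kˣ) : K) ^ 2 * (vc 1 x₀ s y₀ • W).a₂ := by
  simp only [vc, variableChange_a₂, inv_one, Units.val_one, one_pow, one_mul]

theorem vc_a₃ (u : Kˣ) (x₀ s y₀ : K) :
    (vc u x₀ s y₀ • W).a₃ = ((u⁻¹ : Kˣ) : K) ^ 3 * (vc 1 x₀ 0 y₀ • W).a₃ := by
  simp only [vc, variableChange_a₃, inv_one, Units.val_one, one_pow, one_mul]

theorem vc_a₄ (u : Kˣ) (x₀ s y₀ : K) :
    (vc u x₀ s y₀ • W).a₄ = ((u⁻¹ : Kˣ) : K) ^ 4 *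
      ((vc 1 x₀ 0 y₀ • W).a₄ - s * (vc 1 x₀ 0 y₀ • W).a₃) := by
  simp only [vc, variableChange_a₄, variableChange_a₃, inv_one, Units.val_one, one_pow, one_mul]
  ring

/-- **Tate normal form.** A Weierstrass curve over a field with a nonsingular point `(x₀, y₀)` of
exact order `5` is, after a change of variables `C` with `C.r = x₀`, `C.t = y₀` (which moves the
point to `(0, 0)`), the curve `y² + (1 - t) x y - t y = x³ - t x²` for some `t ≠ 0`. -/
theorem exists_tateNF {x₀ y₀ : K} (h : W.toAffine.Nonsingular x₀ y₀)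
    (hord : addOrderOf (Point.some x₀ y₀ h : W.toAffine.Point) = 5) :
    ∃ (C : VariableChange K) (t : K), C.r = x₀ ∧ C.t = y₀ ∧ t ≠ 0 ∧ C • W = tateNF t := by
  have hdvd : ∀ n : ℕ, n • (Point.some x₀ y₀ h : W.toAffine.Point) = 0 → 5 ∣ n := by
    intro n hn
    rw [← hord]; exact addOrderOf_dvd_of_nsmul_eq_zero hn
  have h2 : (2 : ℕ) • (Point.some x₀ y₀ h : W.toAffine.Point) ≠ 0 := fun e => by
    have := hdvd 2 e; omega
  have h3 : (3 : ℕ) • (Point.some x₀ y₀ h : W.toAffine.Point) ≠ 0 := fun e => by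
    have := hdvd 3 e; omega
  have h5 : (5 : ℕ) • (Point.some x₀ y₀ h : W.toAffine.Point) = 0 := by
    rw [← hord]; exact addOrderOf_nsmul_eq_zero _
  -- step 1: translation
  obtain ⟨h01, e1⟩ := exists_zero_point W h (vc 1 x₀ 0 y₀) rfl rfl
  have ha₃1 : (vc 1 x₀ 0 y₀ • W).a₃ ≠ 0 :=
    a₃_ne_zero_of_two_nsmul_ne_zero _ h01
      (fun e => h2 ((nsmul_zero_point_iff W h _ h01 e1 2).mp e))
  -- step 2: kill `a₄`
  obtain ⟨s, hs⟩ : ∃ s : K, s = (vc 1 x₀ 0 y₀ • W).a₄ / (vc 1 x₀ 0 y₀ • W).a₃ := ⟨_, rfl⟩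
  obtain ⟨h02, e2⟩ := exists_zero_point W h (vc 1 x₀ s y₀) rfl rfl
  have ha₃2 : (vc 1 x₀ s y₀ • W).a₃ ≠ 0 := by
    rw [vc_a₃]; simpa using ha₃1
  have ha₄2 : (vc 1 x₀ s y₀ • W).a₄ = 0 := by
    rw [vc_a₄, hs, div_mul_cancel₀ _ ha₃1, sub_self, mul_zero]
  have ha₂2 : (vc 1 x₀ s y₀ • W).a₂ ≠ 0 :=
    a₂_ne_zero_of_three_nsmul_ne_zero _ h02 ha₄2 ha₃2
      (fun e => h3 ((nsmul_zero_point_iff W h _ h02 e2 3).mp e))
  -- step 3: scale
  obtain ⟨A₂, hA₂⟩ : ∃ A₂ : K, A₂ = (vc 1 x₀ s y₀ • W).a₂ := ⟨_, rfl⟩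
  obtain ⟨A₃, hA₃⟩ : ∃ A₃ : K, A₃ = (vc 1 x₀ 0 y₀ • W).a₃ := ⟨_, rfl⟩
  rw [← hA₂] at ha₂2
  rw [← hA₃] at ha₃1
  obtain ⟨u, hu⟩ : ∃ u : Kˣ, ((u⁻¹ : Kˣ) : K) = A₂ / A₃ :=
    ⟨Units.mk0 (A₃ / A₂) (div_ne_zero ha₃1 ha₂2), by
      rw [Units.val_inv_eq_inv_val, Units.val_mk0, inv_div]⟩
  obtain ⟨h03, e3⟩ := exists_zero_point W h (vc u x₀ s y₀) rfl rfl
  have hc₂ : (vc u x₀ s y₀ • W).a₂ = (A₂ / A₃) ^ 2 * A₂ := by
    rw [vc_a₂, hu, hA₂]
  have hc₃ : (vc u x₀ s y₀ • W).a₃ = (A₂ / A₃) ^ 3 * A₃ := by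
    rw [vc_a₃, hu, hA₃]
  have hc₄ : (vc u x₀ s y₀ • W).a₄ = 0 := by
    rw [vc_a₄, hs, ← hA₃, div_mul_cancel₀ _ ha₃1, sub_self, mul_zero]
  have hc₆ : (vc u x₀ s y₀ • W).a₆ = 0 := (equation_zero_iff _).mp h03.1
  have hc₂₃ : (vc u x₀ s y₀ • W).a₃ = (vc u x₀ s y₀ • W).a₂ := by
    rw [hc₂, hc₃]
    field_simp
  obtain ⟨b, hb⟩ : ∃ b : K, b = -(vc u x₀ s y₀ • W).a₂ := ⟨_, rfl⟩
  obtain ⟨c, hc⟩ : ∃ c : K, c = 1 - (vc u x₀ s y₀ • W).a₁ := ⟨_, rfl⟩
  have hb0 : b ≠ 0 := by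
    rw [hb, hc₂]
    exact neg_ne_zero.mpr (mul_ne_zero (pow_ne_zero _ (div_ne_zero ha₂2 ha₃1)) ha₂2)
  have hW3 : vc u x₀ s y₀ • W = tateBC b c := by
    apply WeierstrassCurve.ext
    · rw [tateBC_a₁, hc]; ring
    · rw [tateBC_a₂, hb]; ring
    · rw [tateBC_a₃, hb, hc₂₃]; ring
    · rw [hc₄]; rfl
    · rw [hc₆]; rfl
  -- transport the point and conclude
  have key : ∀ (V : WeierstrassCurve K) (hV : vc u x₀ s y₀ • W = V)
      (h0V : V.toAffine.Nonsingular 0 0),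
      (5 : ℕ) • (Point.some 0 0 h0V : V.toAffine.Point) = 0 := by
    intro V hV h0V
    subst hV
    exact (nsmul_zero_point_iff W h _ h0V (by
      obtain ⟨h0', e'⟩ := exists_zero_point W h (vc u x₀ s y₀) rfl rfl
      exact e') 5).mpr h5
  have h03' : (tateBC b c).toAffine.Nonsingular 0 0 := hW3 ▸ h03
  have hbc : b = c := tateBC_eq_of_five_nsmul hb0 h03' (key _ hW3 h03')
  refine ⟨vc u x₀ s y₀, b, rfl, rfl, hb0, ?_⟩
  rw [hW3, ← hbc, tateBC_self]

end Main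

end Fermat.Agent.SW.K1c.TateNF
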