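import Mathlib
import Fermat.Agent.EC.Mult.Glue
import Fermat.Agent.S13.LpInertia
import Fermat.Agent.LR.VarChangePoint
import Fermat.Agent.SW.K1c.TateNF

/-!
# MOONSHOT S52, block K1c, leaf (U): the quotient character of a fixed point of order `p` is
unramified

`K` an algebraically closed field with a valuation `v`, `v 2 = 1`, `W` a Weierstrass curve over `K`
with `v`-integral coefficients (ANY model) and good or multiplicative reduction; `p` a prime with
`v p = 1`; `(σ, f)` an inertia-like pair (`S05.InertiaLike v W σ f`, no hypothesis that `σ` fixes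
anything); `P0` a point of exact order `p` with `f P0 = P0`.  Then for every `p`-torsion point `Q`

  `f Q - Q ∈ AddSubgroup.zmultiples P0`      (**`sub_mem_zmultiples`**)

i.e. `f` acts trivially on `W[p] / ⟨P0⟩`.

Proof.  Good reduction: `f Q = Q` (S13/LpInertia + S05/Kernel).  Multiplicative reduction: an
integral translate `W₁ = shiftCurve W r t` of `W` has `S05.NodeData` (EC/Mult/NodeCoords).  The
translation `(r, t)` is in general NOT fixed by `σ` (inertia may swap the two `2`-torsion points near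
the node), but `v (σ r - r) ≤ v a₄(W₁)` and `v (σ t - t) ≤ v a₄(W₁)` (`val_map_sub_le`), which is
enough for the component homomorphism `S13.NodeComp.comp` of `W₁` to be `f`-invariant
(`comp_shift_map`).  So `f Q - Q ∈ E₀[p]`, a cyclic group of order `p` (EC/Mult/Cyclic + S13/NodeRed)
fixed pointwise by `f` (EC/Mult/Fixed).  If `P0 ∈ E₀` then `⟨P0⟩ = E₀[p]` and we are done; if not,
the component group has at most `p` elements killed by `p`, so every `p`-torsion point is
`k • P0 + (a point of E₀[p])`, hence fixed by `f`.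
-/

set_option autoImplicit false

namespace Fermat.Agent.SW.K1c.Unram

open WeierstrassCurve WeierstrassCurve.Affine Fermat.Agent.S05 Fermat.Agent.S13.NodeComp

variable {K : Type*} [Field K] [DecidableEq K] {Γ₀ : Type*} [LinearOrderedCommGroupWithZero Γ₀]
variable {v : Valuation K Γ₀} {W : WeierstrassCurve K}

/-! ### the displacement of the node translation under `σ` -/

/-- The `2`-torsion point `(r, t)` of `W` under the node of the reduction moves under an
inertia-like `σ` by at most `v a₄(W₁)`, `W₁ = shiftCurve W r t`. -/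
theorem val_map_sub_le {r t α β : K} (hN : NodeData v (shiftCurve W r t) α β)
    {σ : K →+* K} {f : W.toAffine.Point →+ W.toAffine.Point} (hf : InertiaLike v W σ f)
    (hr : v r ≤ 1) (h2v : v (2 : K) = 1) :
    v (σ r - r) ≤ v (shiftCurve W r t).a₄ ∧ v (σ t - t) ≤ v (shiftCurve W r t).a₄ := by
  have h2 : (2 : K) ≠ 0 := fun h => by rw [h, map_zero] at h2v; exact zero_ne_one h2v
  have h4v : v (4 : K) = 1 := by
    have : (4 : K) = 2 * 2 := by norm_num
    rw [this, map_mul, h2v, one_mul]
  -- the 2-torsion point of `W`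
  have hns : W.toAffine.Nonsingular r t := by
    have := (shiftCurve_nonsingular_add W r t 0 0).mpr hN.nonsingular_zero
    rwa [zero_add, zero_add] at this
  have hT : (Point.some r t hns : W.toAffine.Point) + Point.some r t hns = 0 := by
    have h1 : (shiftEquiv W r t).symm (T0 hN) = Point.some r t hns := by
      unfold T0
      rw [shiftEquiv_symm_some, Point.some.injEq]
      exact ⟨zero_add r, zero_add t⟩
    rw [← h1, ← map_add, T0_add_T0, map_zero]
  obtain ⟨h', hfT⟩ := hf.map_some r t hns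
  have hT' : (Point.some (σ r) (σ t) h' : W.toAffine.Point) + Point.some (σ r) (σ t) h' = 0 := by
    rw [← hfT, ← map_add, hT, map_zero]
  -- `σ t` is its own negative
  have hneg : σ t = W.toAffine.negY (σ r) (σ t) := by
    by_contra hne
    rw [Point.add_self_of_Y_ne hne] at hT'
    exact Point.some_ne_zero _ hT'
  simp only [negY] at hneg
  -- the displaced point lies on `W₁`
  have heq : (shiftCurve W r t).toAffine.Equation (σ r - r) (σ t - t) :=
    (shiftCurve_equation W r t (σ r) (σ t)).mpr h'.1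
  rw [equation_iff, hN.a₃, hN.a₆] at heq
  have ha₃ := hN.a₃
  rw [shiftCurve_a₃] at ha₃
  have e1 : 2 * (σ t - t) = -(W.a₁ * (σ r - r)) := by
    linear_combination hneg - ha₃
  have hsum := hN.sum
  have hprod := hN.prod
  rw [shiftCurve_a₁] at hsum
  -- the key identity
  have key : (σ r - r) * (4 * (σ r - r) + (α - β) ^ 2) * (σ r - r) =
      -(4 * (shiftCurve W r t).a₄) * (σ r - r) := by
    have e2 : (α - β) ^ 2 = W.a₁ ^ 2 + 4 * (shiftCurve W r t).a₂ := by
      linear_combination (α + β - W.a₁) * hsum - 4 * hprod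
    rw [shiftCurve_a₁] at heq
    rw [e2]
    linear_combination (-4 : K) * heq + (2 * (σ t - t) - W.a₁ * (σ r - r) + 2 * W.a₁ * (σ r - r)) * e1
  have hδ : v (σ r - r) < 1 := hf.sub_lt r hr
  have hδs : v (σ r - r) ≤ v (shiftCurve W r t).a₄ := by
    by_cases h0 : σ r - r = 0
    · rw [h0, map_zero]; exact zero_le
    · have key' := mul_right_cancel₀ h0 key
      have hu : v (4 * (σ r - r) + (α - β) ^ 2) = 1 := by
        have h1 : v ((α - β) ^ 2) = 1 := by rw [map_pow, hN.sep, one_pow]
        rw [Valuation.map_add_eq_of_lt_right v, h1]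
        rw [h1, map_mul, h4v, one_mul]
        exact hδ
      have := congrArg v key'
      rw [map_mul, hu, mul_one, Valuation.map_neg, map_mul, h4v, one_mul] at this
      exact this.le
  refine ⟨hδs, ?_⟩
  have := congrArg v e1
  rw [map_mul, h2v, one_mul, Valuation.map_neg, map_mul] at this
  rw [this]
  calc v W.a₁ * v (σ r - r) ≤ 1 * v (σ r - r) := by
        gcongr
        have := hN.a₁
        rwa [shiftCurve_a₁] at this
    _ = v (σ r - r) := one_mul _
    _ ≤ _ := hδs

/-! ### the classes of an affine point -/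

omit [DecidableEq K] in
theorem inE0_some_iff {x y : K} (h : W.toAffine.Nonsingular x y) :
    InE0 v W (Point.some x y h) ↔ 1 ≤ v x := by
  constructor
  · rintro (h0 | ⟨x', y', h', heq, hx'⟩)
    · exact absurd h0 (Point.some_ne_zero _)
    · rw [Point.some.injEq] at heq
      rw [heq.1]; exact hx'
  · intro hx
    exact Or.inr ⟨x, y, h, rfl, hx⟩

omit [DecidableEq K] in
theorem antipodal_some_iff {x y : K} (h : W.toAffine.Nonsingular x y) :
    Antipodal v W (Point.some x y h) ↔ v x ≤ v W.a₄ := by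
  constructor
  · rintro ⟨x', y', h', heq, hx'⟩
    rw [Point.some.injEq] at heq
    rw [heq.1]; exact hx'
  · intro hx
    exact ⟨x, y, h, rfl, hx⟩

omit [DecidableEq K] in
theorem onBranch_some_iff {γ : K} {g : Γ₀} {x y : K} (h : W.toAffine.Nonsingular x y) :
    OnBranch v W γ g (Point.some x y h) ↔ v x = g ∧ v (y - γ * x) < g := by
  constructor
  · rintro ⟨x', y', h', heq, hx', hy'⟩
    rw [Point.some.injEq] at heq
    rw [heq.1, heq.2]; exact ⟨hx', hy'⟩
  · rintro ⟨hx, hy⟩
    exact ⟨x, y, h, rfl, hx, hy⟩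

/-! ### invariance of the component homomorphism -/

section AlgClosed

variable [IsAlgClosed K]

/-- **The component homomorphism of the translated curve is invariant under an inertia-like pair
of `W`**, as soon as `σ` moves the translation by at most `v a₄`. -/
theorem comp_shift_map {r t α β : K} (hN : NodeData v (shiftCurve W r t) α β)
    {σ : K →+* K} {f : W.toAffine.Point →+ W.toAffine.Point} (hf : InertiaLike v W σ f)
    (hδ : v (σ r - r) ≤ v (shiftCurve W r t).a₄) (hε : v (σ t - t) ≤ v (shiftCurve W r t).a₄)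
    (P : W.toAffine.Point) :
    comp hN (shiftEquiv W r t (f P)) = comp hN (shiftEquiv W r t P) := by
  rcases P with _ | ⟨x, y, h⟩
  · have h0 : (Point.zero : W.toAffine.Point) = 0 := rfl
    rw [h0, map_zero]
  · obtain ⟨h', hfP⟩ := hf.map_some x y h
    rw [hfP, shiftEquiv_some, shiftEquiv_some]
    simp only [comp_apply]
    congr 1
    have hs : 0 < v (shiftCurve W r t).a₄ := NodeData.s_pos hN
    have hs1 : v (shiftCurve W r t).a₄ < 1 := hN.a₄_lt
    have hX : σ x - r = σ (x - r) + (σ r - r) := by rw [map_sub]; ring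
    have hY : σ y - t = σ (y - t) + (σ t - t) := by rw [map_sub]; ring
    have h₁ := (shiftCurve_nonsingular W r t x y).mpr h
    have h₂ := (shiftCurve_nonsingular W r t (σ x) (σ y)).mpr h'
    -- the branch case
    have key : ∀ (γ : K) (g : Γ₀), v γ ≤ 1 → v (shiftCurve W r t).a₄ < g →
        OnBranch v (shiftCurve W r t) γ g (Point.some (x - r) (y - t) h₁) →
        OnBranch v (shiftCurve W r t) γ g (Point.some (σ x - r) (σ y - t) h₂) := by
      intro γ g hγ hg hB
      obtain ⟨hx, hy⟩ := (onBranch_some_iff h₁).mp hB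
      have hg0 : 0 < g := hs.trans hg
      refine (onBranch_some_iff h₂).mpr ⟨?_, ?_⟩
      · rw [hX, Valuation.map_add_eq_of_lt_left v, hf.val_eq, hx]
        rw [hf.val_eq, hx]
        exact lt_of_le_of_lt hδ hg
      · have e : σ y - t - γ * (σ x - r) =
            σ (y - t - γ * (x - r)) + ((σ γ - γ) * σ (x - r) + ((σ t - t) - γ * (σ r - r))) := by
          simp only [map_sub, map_mul]
          ring
        rw [e]
        refine Valuation.map_add_lt v (by rw [hf.val_eq]; exact hy)
          (Valuation.map_add_lt v ?_ (lt_of_le_of_lt (Valuation.map_sub_le v hε ?_) hg))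
        · rw [map_mul, hf.val_eq, hx]
          exact mul_lt_of_lt_one_left hg0 (hf.sub_lt γ hγ)
        · rw [map_mul]
          calc v γ * v (σ r - r) ≤ 1 * v (σ r - r) := by gcongr
            _ = v (σ r - r) := one_mul _
            _ ≤ _ := hδ
    rcases classify hN (Point.some (x - r) (y - t) h₁) with hE | hA | ⟨g, hg, hg1, hα | hβ⟩
    · have hx : 1 ≤ v (x - r) := (inE0_some_iff h₁).mp hE
      have hE' : InE0 v (shiftCurve W r t) (Point.some (σ x - r) (σ y - t) h₂) := by
        refine (inE0_some_iff h₂).mpr ?_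
        rw [hX, Valuation.map_add_eq_of_lt_left v, hf.val_eq]
        · exact hx
        · rw [hf.val_eq]
          exact lt_of_le_of_lt hδ (lt_of_lt_of_le hs1 hx)
      rw [compFun_of_inE0 hN hE, compFun_of_inE0 hN hE']
    · have hx : v (x - r) ≤ v (shiftCurve W r t).a₄ := (antipodal_some_iff h₁).mp hA
      have hA' : Antipodal v (shiftCurve W r t) (Point.some (σ x - r) (σ y - t) h₂) := by
        refine (antipodal_some_iff h₂).mpr ?_
        rw [hX]
        exact Valuation.map_add_le v (by rw [hf.val_eq]; exact hx) hδ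
      rw [compFun_of_antipodal hN hA, compFun_of_antipodal hN hA']
    · rw [compFun_of_onBranch_α hN hg hg1 hα,
        compFun_of_onBranch_α hN hg hg1 (key α g hN.val_α hg hα)]
    · rw [compFun_of_onBranch_β hN hg hg1 hβ,
        compFun_of_onBranch_β hN hg hg1 (key β g hN.val_β hg hβ)]

end AlgClosed

/-! ### a group whose `p`-torsion has at most `p` elements -/

/-- In a group whose `p`-torsion has at most `p` elements, every element killed by `p` is a power
of any non-trivial element killed by `p`. -/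
theorem exists_pow_eq_of_card_le {G : Type*} [Group G] {p : ℕ} (hp : p.Prime)
    (hfin : Finite {x : G // x ^ p = 1}) (hcard : Nat.card {x : G // x ^ p = 1} ≤ p)
    {c x : G} (hc : c ^ p = 1) (hc1 : c ≠ 1) (hx : x ^ p = 1) : ∃ k : ℕ, x = c ^ k := by
  have : Fact p.Prime := ⟨hp⟩
  have hord : orderOf c = p := orderOf_eq_prime hc hc1
  let φ : Fin p → {x : G // x ^ p = 1} := fun i =>
    ⟨c ^ (i : ℕ), by rw [← pow_mul, mul_comm, pow_mul, hc, one_pow]⟩
  have hφ : Function.Injective φ := by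
    intro i j hij
    have h1 : c ^ (i : ℕ) = c ^ (j : ℕ) := congrArg Subtype.val hij
    have hi : (i : ℕ) ∈ Set.Iio (orderOf c) := by rw [hord]; exact i.2
    have hj : (j : ℕ) ∈ Set.Iio (orderOf c) := by rw [hord]; exact j.2
    exact Fin.ext (pow_injOn_Iio_orderOf hi hj h1)
  have hbij := hφ.bijective_of_nat_card_le (by rw [Nat.card_fin]; exact hcard)
  obtain ⟨i, hi⟩ := hbij.2 ⟨x, hx⟩
  exact ⟨i, (congrArg Subtype.val hi).symm⟩

/-! ### the theorem -/

section AlgClosed

variable [IsAlgClosed K]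

open Fermat.Agent.EC.Mult

/-- `P` has non-singular reduction, in `W`'s own coordinates: it lies in the kernel of reduction, or
it is an integral affine point with a unit partial derivative. -/
def NonsingRed (v : Valuation K Γ₀) (W : WeierstrassCurve K) (R : W.toAffine.Point) : Prop :=
  InKer v W R ∨ ∃ (x y : K) (h : W.toAffine.Nonsingular x y),
    R = Point.some x y h ∧ v x ≤ 1 ∧ v y ≤ 1 ∧
      (v (W.a₁ * y - (3 * x ^ 2 + 2 * W.a₂ * x + W.a₄)) = 1 ∨ v (2 * y + W.a₁ * x + W.a₃) = 1)

omit [IsAlgClosed K] [DecidableEq K] in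
/-- An integral affine point both of whose partial derivatives are non-units has singular
reduction. -/
theorem not_nonsingRed_of_partials {x y : K} (h : W.toAffine.Nonsingular x y) (hx : v x ≤ 1)
    (h1 : v (W.a₁ * y - (3 * x ^ 2 + 2 * W.a₂ * x + W.a₄)) < 1)
    (h2 : v (2 * y + W.a₁ * x + W.a₃) < 1) : ¬ NonsingRed v W (Point.some x y h) := by
  rintro (hK | ⟨x', y', h', heq, -, -, hu⟩)
  · rcases hK with h0 | ⟨x', y', h', heq, hx'⟩
    · exact Point.some_ne_zero _ h0
    · rw [Point.some.injEq] at heq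
      rw [← heq.1] at hx'
      exact absurd hx (not_le.mpr hx')
  · rw [Point.some.injEq] at heq
    obtain ⟨rfl, rfl⟩ := heq
    rcases hu with hu | hu
    · rw [hu] at h1; exact lt_irrefl _ h1
    · rw [hu] at h2; exact lt_irrefl _ h2

/-- **The structure of the multiplicative case.**  There is a class `E0` of points (those whose
translate to the node model lies in `E₀`), all of non-singular reduction, such that for a fixed
point `P0` of exact order `p`: if `P0` is in the class, `f` acts trivially on `W[p] / ⟨P0⟩`; if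
not, `f` fixes `W[p]` pointwise. -/
theorem mult_aux (hW : IntegralCoeffs v W) (hΔ0 : W.Δ ≠ 0) (hΔ : v W.Δ < 1)
    (hc₄ : v W.c₄ = 1) (h2v : v (2 : K) = 1) {p : ℕ} (hp : p.Prime) (hpv : v (p : K) = 1)
    {σ : K →+* K} {f : W.toAffine.Point →+ W.toAffine.Point} (hf : InertiaLike v W σ f) :
    ∃ E0 : W.toAffine.Point → Prop, (∀ R, E0 R → NonsingRed v W R) ∧
      (∀ P0 : W.toAffine.Point, addOrderOf P0 = p → f P0 = P0 → E0 P0 →
        ∀ Q : W.toAffine.Point, p • Q = 0 → f Q - Q ∈ AddSubgroup.zmultiples P0) ∧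
      (∀ P0 : W.toAffine.Point, addOrderOf P0 = p → f P0 = P0 → ¬ E0 P0 →
        ∀ Q : W.toAffine.Point, p • Q = 0 → f Q = Q) := by
  have h2 : (2 : K) ≠ 0 := fun h => by rw [h, map_zero] at h2v; exact zero_ne_one h2v
  have hp0 : 0 < p := hp.pos
  obtain ⟨r, t, α, β, hr, ht, hN⟩ := NodeCoords.exists_shift_nodeData hW hΔ0 hΔ hc₄ h2
  obtain ⟨hδ, hε⟩ := val_map_sub_le hN hf hr h2v
  have hΔ' : (shiftCurve W r t).Δ ≠ 0 := by rw [shiftCurve_Δ]; exact hΔ0
  -- Fact 0: the class consists of points of non-singular reduction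
  have hns : ∀ R : W.toAffine.Point,
      InE0 v (shiftCurve W r t) (shiftEquiv W r t R) → NonsingRed v W R := by
    intro R hE
    have hsymm : (shiftEquiv W r t).symm (shiftEquiv W r t R) = R :=
      AddEquiv.symm_apply_apply _ _
    have := NodeCoords.cases_of_inE0_shift hr ht hN hE
    rw [hsymm] at this
    exact this
  -- Fact 1: the points of `E₀[p]` are fixed
  have hfix : ∀ R : W.toAffine.Point, p • R = 0 →
      InE0 v (shiftCurve W r t) (shiftEquiv W r t R) → f R = R := by
    intro R hR hE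
    rcases hns R hE with hK | ⟨x, y, h, hP, hx, hy, hns⟩
    · exact Fixed.map_eq_self_of_inKer f hW hpv hK hR
    · rw [hP] at hR ⊢
      exact Fixed.map_eq_self_of_unit_partial hW hf hpv h hx hy hns hR
  -- Fact 2: `f` moves every point by an element of `E₀`
  have hcomp : ∀ Q' : W.toAffine.Point,
      InE0 v (shiftCurve W r t) (shiftEquiv W r t (f Q' - Q')) := by
    intro Q'
    rw [← comp_eq_zero_iff hN, map_sub, map_sub, comp_shift_map hN hf hδ hε, sub_self]
  -- Fact 3: `E₀[p]` is cyclic of order `p`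
  obtain ⟨G, hGE, hGord⟩ := Cyclic.exists_inE0_addOrderOf_eq hN hΔ' hpv
  have hHk : ∀ P ∈ Cyclic.tors (shiftCurve W r t) p, p • P = 0 :=
    fun P hP => Cyclic.mem_tors_iff.mp hP
  obtain ⟨hfin, hcard⟩ := Fermat.Agent.S13.NodeRed.finite_and_card_inf_E0sub_le hN hp0 hpv
    (Cyclic.tors (shiftCurve W r t) p) hHk
  have hgen : ∀ G' : (shiftCurve W r t).toAffine.Point, InE0 v (shiftCurve W r t) G' →
      addOrderOf G' = p →
      AddSubgroup.zmultiples G' = Cyclic.tors (shiftCurve W r t) p ⊓ E0sub hN := by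
    intro G' hE hord
    have hle : AddSubgroup.zmultiples G' ≤ Cyclic.tors (shiftCurve W r t) p ⊓ E0sub hN := by
      rw [AddSubgroup.zmultiples_le, AddSubgroup.mem_inf]
      refine ⟨Cyclic.mem_tors_iff.mpr ?_, (mem_E0sub_iff hN G').mpr hE⟩
      rw [← hord]; exact addOrderOf_nsmul_eq_zero G'
    have := hfin
    exact AddSubgroup.eq_of_le_of_card_ge hle (by rw [Nat.card_zmultiples, hord]; exact hcard)
  refine ⟨fun R => InE0 v (shiftCurve W r t) (shiftEquiv W r t R), hns, ?_, ?_⟩
  · -- `P0 ∈ E₀`: `⟨P0⟩ = E₀[p]`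
    intro P0 hP0 hfP0 hP0E Q hQ
    have hRtors : p • (f Q - Q) = 0 := by
      rw [smul_sub, ← map_nsmul, hQ, map_zero, sub_zero]
    have hord : addOrderOf (shiftEquiv W r t P0) = p := by
      rw [AddEquiv.addOrderOf_eq]; exact hP0
    have hmem : shiftEquiv W r t (f Q - Q) ∈ AddSubgroup.zmultiples (shiftEquiv W r t P0) := by
      rw [hgen _ hP0E hord, AddSubgroup.mem_inf]
      refine ⟨Cyclic.mem_tors_iff.mpr ?_, (mem_E0sub_iff hN _).mpr (hcomp Q)⟩
      rw [← map_nsmul, hRtors, map_zero]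
    obtain ⟨k, hk⟩ := AddSubgroup.mem_zmultiples_iff.mp hmem
    refine AddSubgroup.mem_zmultiples_iff.mpr ⟨k, ?_⟩
    apply (shiftEquiv W r t).injective
    rw [map_zsmul]; exact hk
  · -- `P0 ∉ E₀`: every `p`-torsion point is fixed
    intro P0 hP0 hfP0 hP0E Q hQ
    have hc1 : compFun hN (shiftEquiv W r t P0) ≠ 1 := fun h =>
      hP0E ((compFun_eq_one_iff hN _).mp h)
    have hpow : ∀ R : W.toAffine.Point, p • R = 0 → compFun hN (shiftEquiv W r t R) ^ p = 1 := by
      intro R hR
      have h2 : p • comp hN (shiftEquiv W r t R) = 0 := by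
        rw [← map_nsmul, ← map_nsmul, hR, map_zero, map_zero]
      have := congrArg Additive.toMul h2
      simpa using this
    have hP0tors : p • P0 = 0 := by rw [← hP0]; exact addOrderOf_nsmul_eq_zero P0
    have : NeZero p := ⟨hp0.ne'⟩
    obtain ⟨hfinC, hcardC⟩ := card_compGroup_torsion_le hN p
    obtain ⟨k, hk⟩ := exists_pow_eq_of_card_le hp hfinC hcardC (hpow P0 hP0tors) hc1 (hpow Q hQ)
    have hQ'E : InE0 v (shiftCurve W r t) (shiftEquiv W r t (Q - k • P0)) := by
      rw [← comp_eq_zero_iff hN, map_sub, map_sub, map_nsmul, map_nsmul, comp_apply, comp_apply, hk,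
        ofMul_pow, sub_self]
    have hQ'tors : p • (Q - k • P0) = 0 := by
      rw [smul_sub, hQ, smul_comm, hP0tors, smul_zero, sub_zero]
    have hfixQ' := hfix _ hQ'tors hQ'E
    rw [map_sub, map_nsmul, hfP0] at hfixQ'
    exact sub_left_injective hfixQ'

/-- **Multiplicative reduction**: an inertia-like pair acts trivially on `W[p]` modulo a fixed
point of order `p`. -/
theorem sub_mem_zmultiples_of_mult (hW : IntegralCoeffs v W) (hΔ0 : W.Δ ≠ 0) (hΔ : v W.Δ < 1)
    (hc₄ : v W.c₄ = 1) (h2v : v (2 : K) = 1) {p : ℕ} (hp : p.Prime) (hpv : v (p : K) = 1)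
    {σ : K →+* K} {f : W.toAffine.Point →+ W.toAffine.Point} (hf : InertiaLike v W σ f)
    {P0 : W.toAffine.Point} (hP0 : addOrderOf P0 = p) (hfP0 : f P0 = P0)
    {Q : W.toAffine.Point} (hQ : p • Q = 0) : f Q - Q ∈ AddSubgroup.zmultiples P0 := by
  classical
  obtain ⟨E0, -, hin, hout⟩ := mult_aux hW hΔ0 hΔ hc₄ h2v hp hpv hf
  by_cases hE : E0 P0
  · exact hin P0 hP0 hfP0 hE Q hQ
  · rw [hout P0 hP0 hfP0 hE Q hQ, sub_self]
    exact AddSubgroup.zero_mem _

/-- **Multiplicative reduction, fixed point of singular reduction**: if the fixed point `P0` of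
order `p` reduces to the node, the inertia-like pair fixes `W[p]` pointwise. -/
theorem map_eq_self_of_mult (hW : IntegralCoeffs v W) (hΔ0 : W.Δ ≠ 0) (hΔ : v W.Δ < 1)
    (hc₄ : v W.c₄ = 1) (h2v : v (2 : K) = 1) {p : ℕ} (hp : p.Prime) (hpv : v (p : K) = 1)
    {σ : K →+* K} {f : W.toAffine.Point →+ W.toAffine.Point} (hf : InertiaLike v W σ f)
    {P0 : W.toAffine.Point} (hP0 : addOrderOf P0 = p) (hfP0 : f P0 = P0)
    (hsing : ¬ NonsingRed v W P0) {Q : W.toAffine.Point} (hQ : p • Q = 0) : f Q = Q := by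
  obtain ⟨E0, hns, -, hout⟩ := mult_aux hW hΔ0 hΔ hc₄ h2v hp hpv hf
  exact hout P0 hP0 hfP0 (fun h => hsing (hns P0 h)) Q hQ

end AlgClosed

/-- **Good reduction**: an inertia-like pair fixes every `p`-torsion point (`p` a `v`-unit). -/
theorem map_eq_self_of_good (hW : IntegralCoeffs v W) (hΔ : v W.Δ = 1) {p : ℕ}
    (hpv : v (p : K) = 1) {σ : K →+* K} {f : W.toAffine.Point →+ W.toAffine.Point}
    (hf : InertiaLike v W σ f) {Q : W.toAffine.Point} (hQ : p • Q = 0) : f Q = Q := by
  have hker := Fermat.Agent.S13.LpInertia.sub_inKer_of_good hW hΔ hf Q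
  have htors : p • (f Q - Q) = 0 := by
    rw [smul_sub, ← map_nsmul, hQ, map_zero, sub_zero]
  exact sub_eq_zero.mp (eq_zero_of_inKer_of_nsmul_eq_zero hW hker hpv htors)

section AlgClosed

variable [IsAlgClosed K]

/-- **(U), integral semistable model**: `W` with `v`-integral coefficients and good or
multiplicative reduction, `(σ, f)` inertia-like, `P0` a fixed point of exact order `p` (`p` a prime,
`v p = 1 = v 2`): `f` acts trivially on `W[p] / ⟨P0⟩`. -/
theorem sub_mem_zmultiples (hW : IntegralCoeffs v W) (hΔ0 : W.Δ ≠ 0)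
    (hss : v W.Δ = 1 ∨ (v W.Δ < 1 ∧ v W.c₄ = 1)) (h2v : v (2 : K) = 1) {p : ℕ} (hp : p.Prime)
    (hpv : v (p : K) = 1) {σ : K →+* K} {f : W.toAffine.Point →+ W.toAffine.Point}
    (hf : InertiaLike v W σ f) {P0 : W.toAffine.Point} (hP0 : addOrderOf P0 = p)
    (hfP0 : f P0 = P0) {Q : W.toAffine.Point} (hQ : p • Q = 0) :
    f Q - Q ∈ AddSubgroup.zmultiples P0 := by
  rcases hss with hΔ | ⟨hΔ, hc₄⟩
  · rw [map_eq_self_of_good hW hΔ hpv hf hQ, sub_self]
    exact AddSubgroup.zero_mem _
  · exact sub_mem_zmultiples_of_mult hW hΔ0 hΔ hc₄ h2v hp hpv hf hP0 hfP0 hQ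

end AlgClosed

/-! ### transport along a `σ`-fixed change of variables -/

open Fermat.Agent.LR.VarChangePoint in
/-- An inertia-like pair of `W` induces an inertia-like pair of `C • W`, for `C` fixed by `σ`. -/
theorem inertiaLike_variableChange (C : VariableChange K) {σ : K →+* K}
    {f : W.toAffine.Point →+ W.toAffine.Point} (hf : InertiaLike v W σ f)
    (hu : σ (C.u : K) = C.u) (hr : σ C.r = C.r) (hs : σ C.s = C.s) (ht : σ C.t = C.t) :
    InertiaLike v (C • W) σ
      (((pointEquiv W C).symm.toAddMonoidHom.comp f).comp (pointEquiv W C).toAddMonoidHom) := by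
  refine ⟨hf.val_eq, hf.sub_lt, fun X Y h => ?_⟩
  have h1 : W.toAffine.Nonsingular (vcX C X) (vcY C X Y) := (vc_nonsingular W C X Y).mpr h
  obtain ⟨h2, hf2⟩ := hf.map_some _ _ h1
  have hX : σ (vcX C X) = vcX C (σ X) := by
    simp only [vcX, map_add, map_mul, map_pow, hu, hr]
  have hY : σ (vcY C X Y) = vcY C (σ X) (σ Y) := by
    simp only [vcY, map_add, map_mul, map_pow, hu, hs, ht]
  have h3 : (C • W).toAffine.Nonsingular (σ X) (σ Y) := by
    rw [← vc_nonsingular, ← hX, ← hY]; exact h2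
  refine ⟨h3, ?_⟩
  simp only [AddMonoidHom.coe_comp, AddEquiv.coe_toAddMonoidHom, Function.comp_apply]
  rw [Fermat.Agent.LR.VarChangePoint.pointEquiv_some, hf2]
  apply (pointEquiv W C).injective
  rw [AddEquiv.apply_symm_apply, Fermat.Agent.LR.VarChangePoint.pointEquiv_some, Point.some.injEq]
  exact ⟨hX, hY⟩

section AlgClosed

variable [IsAlgClosed K]

open Fermat.Agent.LR.VarChangePoint in
/-- **(U), general form**: the same for any `W` (no integrality) admitting a `σ`-fixed change of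
variables `C` such that `C • W` is `v`-integral with good or multiplicative reduction. -/
theorem sub_mem_zmultiples_of_variableChange (C : VariableChange K)
    (hW : IntegralCoeffs v (C • W)) (hΔ0 : W.Δ ≠ 0)
    (hss : v (C • W).Δ = 1 ∨ (v (C • W).Δ < 1 ∧ v (C • W).c₄ = 1)) (h2v : v (2 : K) = 1)
    {p : ℕ} (hp : p.Prime) (hpv : v (p : K) = 1) {σ : K →+* K}
    {f : W.toAffine.Point →+ W.toAffine.Point} (hf : InertiaLike v W σ f)
    (hu : σ (C.u : K) = C.u) (hr : σ C.r = C.r) (hs : σ C.s = C.s) (ht : σ C.t = C.t)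
    {P0 : W.toAffine.Point} (hP0 : addOrderOf P0 = p) (hfP0 : f P0 = P0)
    {Q : W.toAffine.Point} (hQ : p • Q = 0) : f Q - Q ∈ AddSubgroup.zmultiples P0 := by
  have hf' := inertiaLike_variableChange C hf hu hr hs ht
  have hΔ0' : (C • W).Δ ≠ 0 := by
    rw [variableChange_Δ]
    exact mul_ne_zero (pow_ne_zero _ (Units.ne_zero _)) hΔ0
  have hP0' : addOrderOf ((pointEquiv W C).symm P0) = p := by
    rw [AddEquiv.addOrderOf_eq]; exact hP0
  have hfP0' : (((pointEquiv W C).symm.toAddMonoidHom.comp f).comp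
      (pointEquiv W C).toAddMonoidHom) ((pointEquiv W C).symm P0) = (pointEquiv W C).symm P0 := by
    simp only [AddMonoidHom.coe_comp, AddEquiv.coe_toAddMonoidHom, Function.comp_apply,
      AddEquiv.apply_symm_apply, hfP0]
  have hQ' : p • (pointEquiv W C).symm Q = 0 := by rw [← map_nsmul, hQ, map_zero]
  have key := sub_mem_zmultiples hW hΔ0' hss h2v hp hpv hf' hP0' hfP0' hQ'
  simp only [AddMonoidHom.coe_comp, AddEquiv.coe_toAddMonoidHom, Function.comp_apply,
    AddEquiv.apply_symm_apply] at key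
  obtain ⟨k, hk⟩ := AddSubgroup.mem_zmultiples_iff.mp key
  refine AddSubgroup.mem_zmultiples_iff.mpr ⟨k, ?_⟩
  apply (pointEquiv W C).symm.injective
  rw [map_zsmul, map_sub]; exact hk

end AlgClosed

open Fermat.Agent.LR.VarChangePoint in
/-- transport of "`f` fixes `W[p]` pointwise" along a `σ`-fixed change of variables -/
theorem map_eq_self_of_variableChange (C : VariableChange K)
    {f : W.toAffine.Point →+ W.toAffine.Point} {p : ℕ}
    (h : ∀ Q' : (C • W).toAffine.Point, p • Q' = 0 →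
      (((pointEquiv W C).symm.toAddMonoidHom.comp f).comp (pointEquiv W C).toAddMonoidHom) Q' = Q')
    {Q : W.toAffine.Point} (hQ : p • Q = 0) : f Q = Q := by
  have hQ' : p • (pointEquiv W C).symm Q = 0 := by rw [← map_nsmul, hQ, map_zero]
  have key := h _ hQ'
  simp only [AddMonoidHom.coe_comp, AddEquiv.coe_toAddMonoidHom, Function.comp_apply,
    AddEquiv.apply_symm_apply] at key
  exact (pointEquiv W C).symm.injective key

/-- If `f` fixes `P0` and moves `Q` by a multiple of `P0`, then `f^[n]` fixes `Q` as soon as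
`n • P0 = 0`. -/
theorem iterate_eq_self_of_sub_mem_zmultiples {G : Type*} [AddCommGroup G] (f : G →+ G)
    {P0 Q : G} (hfP0 : f P0 = P0) {n : ℕ} (hn : n • P0 = 0)
    (h : f Q - Q ∈ AddSubgroup.zmultiples P0) : f^[n] Q = Q := by
  obtain ⟨k, hk⟩ := AddSubgroup.mem_zmultiples_iff.mp h
  have hfQ : f Q = Q + k • P0 := by rw [hk]; abel
  have key : ∀ m : ℕ, f^[m] Q = Q + (m : ℤ) • (k • P0) := by
    intro m
    induction m with
    | zero => simp
    | succ m ih =>
      rw [Function.iterate_succ_apply', ih, map_add, map_zsmul, map_zsmul, hfP0, hfQ]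
      push_cast
      rw [add_smul, one_smul]
      abel
  rw [key n, smul_comm, natCast_zsmul, hn, smul_zero, add_zero]

/-! ### the Tate normal form of a point of order `5` is semistable at every valuation -/

open Fermat.Agent.SW.K1c.TateNF

/-- The Tate normal form at `t = ∞`: `tateNF t` scaled by `u = t`, in the parameter `w = 1/t`. -/
def tateInf {R : Type*} [CommRing R] (w : R) : WeierstrassCurve R := ⟨w - 1, -w, -w ^ 2, 0, 0⟩

theorem tateInf_Δ {R : Type*} [CommRing R] (w : R) :
    (tateInf w).Δ = w ^ 5 * (1 - 11 * w - w ^ 2) := by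
  simp only [tateInf, WeierstrassCurve.Δ, WeierstrassCurve.b₂, WeierstrassCurve.b₄,
    WeierstrassCurve.b₆, WeierstrassCurve.b₈]
  ring

theorem tateInf_c₄ {R : Type*} [CommRing R] (w : R) :
    (tateInf w).c₄ = 1 + w * (-12 + 14 * w + 12 * w ^ 2 + w ^ 3) := by
  simp only [tateInf, WeierstrassCurve.c₄, WeierstrassCurve.b₂, WeierstrassCurve.b₄]
  ring

omit [DecidableEq K] in
theorem smul_tateNF {t : K} (ht : t ≠ 0) :
    (⟨Units.mk0 t ht, 0, 0, 0⟩ : VariableChange K) • tateNF t = tateInf t⁻¹ := by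
  ext
  · simp only [variableChange_a₁, tateNF, tateInf, Units.val_inv_eq_inv_val, Units.val_mk0]
    field_simp
    ring
  · simp only [variableChange_a₂, tateNF, tateInf, Units.val_inv_eq_inv_val, Units.val_mk0]
    field_simp
    ring
  · simp only [variableChange_a₃, tateNF, tateInf, Units.val_inv_eq_inv_val, Units.val_mk0]
    field_simp
    ring
  · simp only [variableChange_a₄, tateNF, tateInf, Units.val_inv_eq_inv_val, Units.val_mk0]
    ring
  · simp only [variableChange_a₆, tateNF, tateInf, Units.val_inv_eq_inv_val, Units.val_mk0]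
    ring

omit [DecidableEq K] in
theorem val_one_add_mul_eq {x y : K} (hx : v x < 1) (hy : v y ≤ 1) : v (1 + x * y) = 1 := by
  have h : v (x * y) < v (1 : K) := by
    rw [map_mul, map_one]
    calc v x * v y ≤ v x * 1 := by gcongr
      _ = v x := mul_one _
      _ < 1 := hx
  rw [Valuation.map_add_eq_of_lt_left v h, map_one]

omit [DecidableEq K] in
/-- **`tateNF t` is integral and semistable for `v t ≤ 1`** (`v 5 = 1`). -/
theorem tateNF_semistable (h5v : v (5 : K) = 1) {t : K} (ht : t ≠ 0)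
    (hD : t ^ 2 - 11 * t - 1 ≠ 0) (hvt : v t ≤ 1) :
    IntegralCoeffs v (tateNF t) ∧ (tateNF t).Δ ≠ 0 ∧
      (v (tateNF t).Δ = 1 ∨ (v (tateNF t).Δ < 1 ∧ v (tateNF t).c₄ = 1)) := by
  have htm : t ∈ v.integer := (Valuation.mem_integer_iff v t).mpr hvt
  have hDle : v (t ^ 2 - 11 * t - 1) ≤ 1 := by
    rw [← Valuation.mem_integer_iff]
    exact sub_mem (sub_mem (pow_mem htm 2) (mul_mem (ofNat_mem _ 11) htm)) (one_mem _)
  refine ⟨⟨?_, ?_, ?_, ?_, ?_⟩, ?_, ?_⟩
  · change v (1 - t) ≤ 1
    exact Valuation.map_sub_le v (by rw [map_one]) hvt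
  · change v (-t) ≤ 1
    rw [Valuation.map_neg]; exact hvt
  · change v (-t) ≤ 1
    rw [Valuation.map_neg]; exact hvt
  · change v (0 : K) ≤ 1
    rw [map_zero]; exact zero_le
  · change v (0 : K) ≤ 1
    rw [map_zero]; exact zero_le
  · rw [tateNF_Δ]; exact mul_ne_zero (pow_ne_zero _ ht) hD
  · rw [tateNF_Δ, tateNF_c₄, map_mul, map_pow]
    rcases lt_or_eq_of_le hvt with hlt | heq
    · right
      constructor
      · calc v t ^ 5 * v (t ^ 2 - 11 * t - 1) ≤ v t ^ 5 * 1 := by gcongr
          _ = v t ^ 5 := mul_one _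
          _ < 1 := pow_lt_one₀ zero_le hlt (by norm_num)
      · have e : t ^ 4 - 12 * t ^ 3 + 14 * t ^ 2 + 12 * t + 1 =
            1 + t * (t ^ 3 - 12 * t ^ 2 + 14 * t + 12) := by ring
        rw [e]
        refine val_one_add_mul_eq hlt ?_
        rw [← Valuation.mem_integer_iff]
        exact add_mem (add_mem (sub_mem (pow_mem htm 3) (mul_mem (ofNat_mem _ 12) (pow_mem htm 2)))
          (mul_mem (ofNat_mem _ 14) htm)) (ofNat_mem _ 12)
    · rw [heq, one_pow, one_mul]
      rcases lt_or_eq_of_le hDle with hlt | heq'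
      · right
        refine ⟨hlt, ?_⟩
        have e : t ^ 4 - 12 * t ^ 3 + 14 * t ^ 2 + 12 * t + 1 =
            5 * t ^ 2 + (t ^ 2 - 11 * t - 1) * (t ^ 2 - t - 1) := by ring
        have h1 : v (5 * t ^ 2) = 1 := by rw [map_mul, map_pow, h5v, heq, one_pow, one_mul]
        have h2 : v ((t ^ 2 - 11 * t - 1) * (t ^ 2 - t - 1)) < v (5 * t ^ 2) := by
          rw [h1, map_mul]
          have h3 : v (t ^ 2 - t - 1) ≤ 1 := by
            rw [← Valuation.mem_integer_iff]
            exact sub_mem (sub_mem (pow_mem htm 2) htm) (one_mem _)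
          calc v (t ^ 2 - 11 * t - 1) * v (t ^ 2 - t - 1) ≤ v (t ^ 2 - 11 * t - 1) * 1 := by gcongr
            _ = v (t ^ 2 - 11 * t - 1) := mul_one _
            _ < 1 := hlt
        rw [e, Valuation.map_add_eq_of_lt_left v h2, h1]
      · exact Or.inl heq'

omit [DecidableEq K] in
/-- **`tateInf w` is integral with multiplicative reduction for `v w < 1`**. -/
theorem tateInf_semistable {w : K} (hvw : v w < 1) :
    IntegralCoeffs v (tateInf w) ∧ v (tateInf w).Δ < 1 ∧ v (tateInf w).c₄ = 1 := by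
  have hwm : w ∈ v.integer := (Valuation.mem_integer_iff v w).mpr hvw.le
  refine ⟨⟨?_, ?_, ?_, ?_, ?_⟩, ?_, ?_⟩
  · change v (w - 1) ≤ 1
    exact Valuation.map_sub_le v hvw.le (by rw [map_one])
  · change v (-w) ≤ 1
    rw [Valuation.map_neg]; exact hvw.le
  · change v (-w ^ 2) ≤ 1
    rw [Valuation.map_neg, map_pow]; exact pow_le_one₀ zero_le hvw.le
  · change v (0 : K) ≤ 1
    rw [map_zero]; exact zero_le
  · change v (0 : K) ≤ 1
    rw [map_zero]; exact zero_le
  · rw [tateInf_Δ, map_mul, map_pow]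
    have h1 : v (1 - 11 * w - w ^ 2) ≤ 1 := by
      rw [← Valuation.mem_integer_iff]
      exact sub_mem (sub_mem (one_mem _) (mul_mem (ofNat_mem _ 11) hwm)) (pow_mem hwm 2)
    calc v w ^ 5 * v (1 - 11 * w - w ^ 2) ≤ v w ^ 5 * 1 := by gcongr
      _ = v w ^ 5 := mul_one _
      _ < 1 := pow_lt_one₀ zero_le hvw (by norm_num)
  · rw [tateInf_c₄]
    refine val_one_add_mul_eq hvw ?_
    rw [← Valuation.mem_integer_iff]
    exact add_mem (add_mem (add_mem (neg_mem (ofNat_mem _ 12)) (mul_mem (ofNat_mem _ 14) hwm))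
      (mul_mem (ofNat_mem _ 12) (pow_mem hwm 2))) (pow_mem hwm 3)

section AlgClosed

variable [IsAlgClosed K]

/-- **(U) for the Tate normal form**: for EVERY valuation `v` of `K` with `v 2 = v 5 = 1` (no
hypothesis on `v t`), every inertia-like pair `(σ, f)` of `tateNF t` with `σ t = t` acts trivially on
`(tateNF t)[5]` modulo the point `(0, 0)` of order `5`. -/
theorem tateNF_sub_mem_zmultiples (h2v : v (2 : K) = 1) (h5v : v (5 : K) = 1) {t : K} (ht : t ≠ 0)
    (hD : t ^ 2 - 11 * t - 1 ≠ 0) {σ : K →+* K}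
    {f : (tateNF t).toAffine.Point →+ (tateNF t).toAffine.Point}
    (hf : InertiaLike v (tateNF t) σ f) (hσt : σ t = t) {Q : (tateNF t).toAffine.Point}
    (hQ : 5 • Q = 0) :
    f Q - Q ∈ AddSubgroup.zmultiples
      (Point.some 0 0 (tateNF_nonsingular_zero ht) : (tateNF t).toAffine.Point) := by
  have hp : Nat.Prime 5 := by norm_num
  have hpv : v ((5 : ℕ) : K) = 1 := by rw [Nat.cast_ofNat]; exact h5v
  have hfP0 : f (Point.some 0 0 (tateNF_nonsingular_zero ht)) =
      Point.some 0 0 (tateNF_nonsingular_zero ht) := by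
    obtain ⟨h', hf0⟩ := hf.map_some 0 0 (tateNF_nonsingular_zero ht)
    rw [hf0, Point.some.injEq]
    exact ⟨map_zero σ, map_zero σ⟩
  have hΔ0 : (tateNF t).Δ ≠ 0 := by
    rw [tateNF_Δ]; exact mul_ne_zero (pow_ne_zero _ ht) hD
  rcases le_or_gt (v t) 1 with hvt | hvt
  · obtain ⟨hW, -, hss⟩ := tateNF_semistable h5v ht hD hvt
    exact sub_mem_zmultiples hW hΔ0 hss h2v hp hpv hf (tateNF_addOrderOf ht) hfP0 hQ
  · have hw : t⁻¹ ≠ 0 := inv_ne_zero ht
    have hvw : v t⁻¹ < 1 := by
      rw [map_inv₀]; exact inv_lt_one_of_one_lt₀ hvt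
    obtain ⟨hW, hΔ, hc₄⟩ := tateInf_semistable hvw
    rw [← smul_tateNF ht] at hW hΔ hc₄
    exact sub_mem_zmultiples_of_variableChange _ hW hΔ0 (Or.inr ⟨hΔ, hc₄⟩) h2v hp hpv hf
      (by rw [Units.val_mk0]; exact hσt) (map_zero σ) (map_zero σ) (map_zero σ)
      (tateNF_addOrderOf ht) hfP0 hQ

/-- **(U), strong form away from `t² - 11 t - 1 = 0`**: at a valuation `v` with
`¬ v (t² - 11 t - 1) < 1` (good reduction, or multiplicative reduction at `t = 0, ∞` where `(0,0)`
reduces to the node), an inertia-like pair `(σ, f)` with `σ t = t` fixes `(tateNF t)[5]`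
pointwise. -/
theorem tateNF_map_eq_self (h2v : v (2 : K) = 1) (h5v : v (5 : K) = 1) {t : K} (ht : t ≠ 0)
    (hD : t ^ 2 - 11 * t - 1 ≠ 0) {σ : K →+* K}
    {f : (tateNF t).toAffine.Point →+ (tateNF t).toAffine.Point}
    (hf : InertiaLike v (tateNF t) σ f) (hσt : σ t = t)
    (hunr : ¬ v (t ^ 2 - 11 * t - 1) < 1) {Q : (tateNF t).toAffine.Point}
    (hQ : 5 • Q = 0) : f Q = Q := by
  have hp : Nat.Prime 5 := by norm_num
  have hpv : v ((5 : ℕ) : K) = 1 := by rw [Nat.cast_ofNat]; exact h5v
  have hfP0 : f (Point.some 0 0 (tateNF_nonsingular_zero ht)) =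
      Point.some 0 0 (tateNF_nonsingular_zero ht) := by
    obtain ⟨h', hf0⟩ := hf.map_some 0 0 (tateNF_nonsingular_zero ht)
    rw [hf0, Point.some.injEq]
    exact ⟨map_zero σ, map_zero σ⟩
  have hΔ0 : (tateNF t).Δ ≠ 0 := by
    rw [tateNF_Δ]; exact mul_ne_zero (pow_ne_zero _ ht) hD
  rcases le_or_gt (v t) 1 with hvt | hvt
  · obtain ⟨hW, -, hss⟩ := tateNF_semistable h5v ht hD hvt
    rcases hss with hΔ | ⟨hΔ, hc₄⟩
    · exact map_eq_self_of_good hW hΔ hpv hf hQ
    · -- `v t < 1`, the point `(0,0)` reduces to the node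
      have hvt1 : v t < 1 := by
        rcases lt_or_eq_of_le hvt with h | h
        · exact h
        · exfalso
          rw [tateNF_Δ, map_mul, map_pow, h, one_pow, one_mul] at hΔ
          exact hunr hΔ
      refine map_eq_self_of_mult hW hΔ0 hΔ hc₄ h2v hp hpv hf (tateNF_addOrderOf ht) hfP0 ?_ hQ
      refine not_nonsingRed_of_partials _ (by rw [map_zero]; exact zero_le) ?_ ?_
      · have : (tateNF t).a₁ * 0 - (3 * 0 ^ 2 + 2 * (tateNF t).a₂ * 0 + (tateNF t).a₄) = 0 := by
          change (1 - t) * 0 - (3 * 0 ^ 2 + 2 * (-t) * 0 + 0) = 0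
          ring
        rw [this, map_zero]; exact zero_lt_one
      · have : 2 * 0 + (tateNF t).a₁ * 0 + (tateNF t).a₃ = -t := by
          change 2 * 0 + (1 - t) * 0 + -t = -t
          ring
        rw [this, Valuation.map_neg]; exact hvt1
  · have hvw : v t⁻¹ < 1 := by
      rw [map_inv₀]; exact inv_lt_one_of_one_lt₀ hvt
    obtain ⟨hW, hΔ, hc₄⟩ := tateInf_semistable hvw
    rw [← smul_tateNF ht] at hW hΔ hc₄
    have hf' := inertiaLike_variableChange (⟨Units.mk0 t ht, 0, 0, 0⟩ : VariableChange K) hf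
      (by rw [Units.val_mk0]; exact hσt) (map_zero σ) (map_zero σ) (map_zero σ)
    have hΔ0' : ((⟨Units.mk0 t ht, 0, 0, 0⟩ : VariableChange K) • tateNF t).Δ ≠ 0 := by
      rw [variableChange_Δ]
      exact mul_ne_zero (pow_ne_zero _ (Units.ne_zero _)) hΔ0
    refine map_eq_self_of_variableChange (⟨Units.mk0 t ht, 0, 0, 0⟩ : VariableChange K) ?_ hQ
    intro Q' hQ'
    -- the point `(0,0)` of the scaled model
    obtain ⟨h0, e0⟩ : ∃ h0 : ((⟨Units.mk0 t ht, 0, 0, 0⟩ : VariableChange K) •
        tateNF t).toAffine.Nonsingular 0 0,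
        (Fermat.Agent.LR.VarChangePoint.pointEquiv (tateNF t)
          (⟨Units.mk0 t ht, 0, 0, 0⟩ : VariableChange K)).symm
          (Point.some 0 0 (tateNF_nonsingular_zero ht)) = Point.some 0 0 h0 := by
      rw [Fermat.Agent.LR.VarChangePoint.pointEquiv_symm_some]
      have hx : Fermat.Agent.LR.VarChangePoint.vcXinv
          (⟨Units.mk0 t ht, 0, 0, 0⟩ : VariableChange K) 0 = 0 := by
        simp [Fermat.Agent.LR.VarChangePoint.vcXinv]
      have hy : Fermat.Agent.LR.VarChangePoint.vcYinv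
          (⟨Units.mk0 t ht, 0, 0, 0⟩ : VariableChange K) 0 0 = 0 := by
        simp [Fermat.Agent.LR.VarChangePoint.vcYinv]
      have hns := (Fermat.Agent.LR.VarChangePoint.vc_nonsingular_inv (tateNF t)
        (⟨Units.mk0 t ht, 0, 0, 0⟩ : VariableChange K) 0 0).mpr (tateNF_nonsingular_zero ht)
      rw [hx, hy] at hns
      refine ⟨hns, ?_⟩
      rw [Point.some.injEq]
      exact ⟨hx, hy⟩
    have hord : addOrderOf (Point.some 0 0 h0 : ((⟨Units.mk0 t ht, 0, 0, 0⟩ : VariableChange K) •
        tateNF t).toAffine.Point) = 5 := by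
      rw [← e0, AddEquiv.addOrderOf_eq]; exact tateNF_addOrderOf ht
    have hfix0 : (((Fermat.Agent.LR.VarChangePoint.pointEquiv (tateNF t)
        (⟨Units.mk0 t ht, 0, 0, 0⟩ : VariableChange K)).symm.toAddMonoidHom.comp f).comp
        (Fermat.Agent.LR.VarChangePoint.pointEquiv (tateNF t)
          (⟨Units.mk0 t ht, 0, 0, 0⟩ : VariableChange K)).toAddMonoidHom) (Point.some 0 0 h0) =
        Point.some 0 0 h0 := by
      obtain ⟨h', hf0⟩ := hf'.map_some 0 0 h0
      rw [hf0, Point.some.injEq]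
      exact ⟨map_zero σ, map_zero σ⟩
    refine map_eq_self_of_mult hW hΔ0' hΔ hc₄ h2v hp hpv hf' hord hfix0 ?_ hQ'
    refine not_nonsingRed_of_partials _ (by rw [map_zero]; exact zero_le) ?_ ?_
    · rw [smul_tateNF ht]
      have : (tateInf t⁻¹).a₁ * 0 - (3 * 0 ^ 2 + 2 * (tateInf t⁻¹).a₂ * 0 + (tateInf t⁻¹).a₄) =
          0 := by
        change (t⁻¹ - 1) * 0 - (3 * 0 ^ 2 + 2 * (-t⁻¹) * 0 + 0) = 0
        ring
      rw [this, map_zero]; exact zero_lt_one
    · rw [smul_tateNF ht]
      have : 2 * 0 + (tateInf t⁻¹).a₁ * 0 + (tateInf t⁻¹).a₃ = -t⁻¹ ^ 2 := by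
        change 2 * 0 + (t⁻¹ - 1) * 0 + -t⁻¹ ^ 2 = -t⁻¹ ^ 2
        ring
      rw [this, Valuation.map_neg, map_pow]
      exact pow_lt_one₀ zero_le hvw (by norm_num)

/-- **(U), iterate form**: at EVERY valuation `v` (`v 2 = v 5 = 1`), for an inertia-like pair
`(σ, f)` with `σ t = t`, `f^[5]` fixes `(tateNF t)[5]` pointwise (`f` is unipotent on the
`5`-torsion). -/
theorem tateNF_iterate_five (h2v : v (2 : K) = 1) (h5v : v (5 : K) = 1) {t : K} (ht : t ≠ 0)
    (hD : t ^ 2 - 11 * t - 1 ≠ 0) {σ : K →+* K}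
    {f : (tateNF t).toAffine.Point →+ (tateNF t).toAffine.Point}
    (hf : InertiaLike v (tateNF t) σ f) (hσt : σ t = t) {Q : (tateNF t).toAffine.Point}
    (hQ : 5 • Q = 0) : f^[5] Q = Q := by
  have hfP0 : f (Point.some 0 0 (tateNF_nonsingular_zero ht)) =
      Point.some 0 0 (tateNF_nonsingular_zero ht) := by
    obtain ⟨h', hf0⟩ := hf.map_some 0 0 (tateNF_nonsingular_zero ht)
    rw [hf0, Point.some.injEq]
    exact ⟨map_zero σ, map_zero σ⟩
  exact iterate_eq_self_of_sub_mem_zmultiples f hfP0 (tateNF_five_nsmul ht _)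
    (tateNF_sub_mem_zmultiples h2v h5v ht hD hf hσt hQ)

end AlgClosed

end Fermat.Agent.SW.K1c.Unram
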