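import Mathlib
import Fermat.Prelude.Def_FLTPrelim_GaloisRep
import Fermat.Prelude.Def_FLTPrelim_Ramification
import Fermat.Agent.S05.Val
import Fermat.Agent.SW.K1c.Unram

/-!
# MOONSHOT S52, block K1, leaf E (GENUS 0): the Galois form of (U)

`k` a field of characteristic `0`, `Fb` an algebraically closed field over `k`, `t : Fb` with
`t ≠ 0`, `t² - 11 t - 1 ≠ 0`, `Fb` algebraic over `T := k(t)`.  `torsX t` is the set of
`X`-coordinates of the `5`-torsion points of `tateNF t` over `Fb`, and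
`Mfield k t := k(t, torsX t)`.  For a valuation subring `O` of `Fb` containing the constants and
`σ` in the inertia group of `O` in `Gal(Fb / T)` (the Prelude's `inertiaSubgroupIn`):

* `fixes_of_inertia` : if `O` is not centred at a zero of `t² - 11 t - 1`, `σ` fixes `Mfield k t`
  pointwise;
* `pow_five_fixes_of_inertia` : in any case `σ ^ 5` fixes `Mfield k t` pointwise.

These are the hypotheses of `EContract.ECore1` / (after the orbit argument) `ECore2`.
-/

set_option autoImplicit false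

open WeierstrassCurve WeierstrassCurve.Affine IntermediateField Fermat.Agent.S05
open Fermat.Agent.SW.K1c.TateNF Fermat.Agent.SW.K1c.Unram
open scoped WeierstrassCurve.Affine

namespace Fermat.Agent.SW.K1c.EGal

/-- The `x`-coordinate of a point (`0` for the point at infinity). -/
def xCoord {K : Type*} [CommRing K] {W : Affine K} : W.Point → K
  | .zero => 0
  | @Point.some _ _ _ x _ _ => x

variable {k Fb : Type*} [Field k] [Field Fb] [Algebra k Fb] [DecidableEq Fb]

/-- The `X`-coordinates of the `5`-torsion points of `tateNF t`. -/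
def torsX (t : Fb) : Set Fb :=
  {X | ∃ Q : (tateNF t).toAffine.Point, 5 • Q = 0 ∧ X = xCoord Q}

variable (k) in
/-- The field `k(t, X(tateNF t [5]))`. -/
def Mfield (t : Fb) : IntermediateField k Fb := IntermediateField.adjoin k (insert t (torsX t))

/-! ### the abstract form (any inertia-like pair) -/

section Abstract

variable {Γ₀ : Type*} [LinearOrderedCommGroupWithZero Γ₀] {v : Valuation Fb Γ₀}

omit [DecidableEq Fb] in
theorem xCoord_map {W : WeierstrassCurve Fb} [DecidableEq Fb] {σ : Fb →+* Fb}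
    {f : W.toAffine.Point →+ W.toAffine.Point} (hf : InertiaLike v W σ f)
    (Q : W.toAffine.Point) : xCoord (f Q) = σ (xCoord Q) := by
  rcases Q with _ | ⟨x, y, h⟩
  · have h0 : (Point.zero : W.toAffine.Point) = 0 := rfl
    rw [h0, map_zero]
    exact (map_zero σ).symm
  · obtain ⟨h', hfQ⟩ := hf.map_some x y h
    rw [hfQ]
    rfl

omit [DecidableEq Fb] in
theorem xCoord_iterate {W : WeierstrassCurve Fb} [DecidableEq Fb] {σ : Fb →+* Fb}
    {f : W.toAffine.Point →+ W.toAffine.Point} (hf : InertiaLike v W σ f)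
    (Q : W.toAffine.Point) (n : ℕ) : xCoord (f^[n] Q) = σ^[n] (xCoord Q) := by
  induction n with
  | zero => rfl
  | succ n ih => rw [Function.iterate_succ_apply', Function.iterate_succ_apply', xCoord_map hf, ih]

variable [IsAlgClosed Fb]

/-- away from `t² - 11 t - 1 = 0` an inertia-like `σ` fixes the `X`-coordinates of the `5`-torsion -/
theorem fixes_torsX_aux (h2v : v (2 : Fb) = 1) (h5v : v (5 : Fb) = 1) {t : Fb} (ht : t ≠ 0)
    (hD : t ^ 2 - 11 * t - 1 ≠ 0) {W : WeierstrassCurve Fb} (hW : W = tateNF t) {σ : Fb →+* Fb}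
    {f : W.toAffine.Point →+ W.toAffine.Point} (hf : InertiaLike v W σ f) (hσt : σ t = t)
    (hunr : ¬ v (t ^ 2 - 11 * t - 1) < 1) : ∀ X ∈ torsX t, σ X = X := by
  subst hW
  rintro X ⟨Q, hQ, rfl⟩
  rw [← xCoord_map hf, tateNF_map_eq_self h2v h5v ht hD hf hσt hunr hQ]

/-- in any case `σ^[5]` fixes the `X`-coordinates of the `5`-torsion -/
theorem iterate_five_torsX_aux (h2v : v (2 : Fb) = 1) (h5v : v (5 : Fb) = 1) {t : Fb} (ht : t ≠ 0)
    (hD : t ^ 2 - 11 * t - 1 ≠ 0) {W : WeierstrassCurve Fb} (hW : W = tateNF t) {σ : Fb →+* Fb}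
    {f : W.toAffine.Point →+ W.toAffine.Point} (hf : InertiaLike v W σ f) (hσt : σ t = t) :
    ∀ X ∈ torsX t, σ^[5] X = X := by
  subst hW
  rintro X ⟨Q, hQ, rfl⟩
  rw [← xCoord_iterate hf, tateNF_iterate_five h2v h5v ht hD hf hσt hQ]

end Abstract

/-! ### the Galois form -/

section Galois

variable [IsAlgClosed Fb] (t : Fb)

variable (k) in
/-- `t` as an element of `k(t)` -/
def tT : ↥k⟮t⟯ := ⟨t, mem_adjoin_simple_self k t⟩

omit [DecidableEq Fb] [IsAlgClosed Fb] in
theorem baseChange_tateNF : ((tateNF (tT k t)).toAffine⁄Fb) = tateNF t := by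
  change (tateNF (tT k t)).map (algebraMap ↥k⟮t⟯ Fb) = tateNF t
  ext <;> simp [tateNF, tT, WeierstrassCurve.map]

omit [IsAlgClosed Fb] in
/-- An element of the inertia group induces an inertia-like pair. -/
theorem inertiaLike_galois (halg : ∀ x : Fb, IsAlgebraic ↥k⟮t⟯ x) (O : ValuationSubring Fb)
    {σ : Fb ≃ₐ[↥k⟮t⟯] Fb} (hσ : σ ∈ O.inertiaSubgroupIn ↥k⟮t⟯) (E : Affine ↥k⟮t⟯) :
    InertiaLike O.valuation (E⁄Fb) (σ : Fb →+* Fb) (Point.map σ.toAlgHom) where
  val_eq x := inertia_val_eq O hσ halg x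
  sub_lt _ hx := inertia_sub_lt_one O hσ hx
  map_some _ _ h := ⟨_, Point.map_some σ.toAlgHom h⟩

omit [DecidableEq Fb] [IsAlgClosed Fb] in
/-- the constants are units of a valuation subring containing them -/
theorem val_const_eq_one {O : ValuationSubring Fb} (hkO : ∀ z : k, algebraMap k Fb z ∈ O) {z : k}
    (hz : z ≠ 0) : O.valuation (algebraMap k Fb z) = 1 := by
  have h1 : O.valuation (algebraMap k Fb z) ≤ 1 := (O.valuation_le_one_iff _).mpr (hkO z)
  have h2 : O.valuation (algebraMap k Fb z⁻¹) ≤ 1 := (O.valuation_le_one_iff _).mpr (hkO z⁻¹)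
  have h3 : O.valuation (algebraMap k Fb z) * O.valuation (algebraMap k Fb z⁻¹) = 1 := by
    rw [← map_mul, ← map_mul, mul_inv_cancel₀ hz, map_one, map_one]
  refine le_antisymm h1 ?_
  calc (1 : O.ValueGroup) = O.valuation (algebraMap k Fb z) * O.valuation (algebraMap k Fb z⁻¹) :=
        h3.symm
    _ ≤ O.valuation (algebraMap k Fb z) * 1 := by gcongr
    _ = _ := mul_one _

variable [CharZero k]

omit [DecidableEq Fb] [IsAlgClosed Fb] in
theorem val_two_eq_one {O : ValuationSubring Fb} (hkO : ∀ z : k, algebraMap k Fb z ∈ O) :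
    O.valuation (2 : Fb) = 1 := by
  have := val_const_eq_one hkO (z := (2 : k)) two_ne_zero
  rwa [map_ofNat] at this

omit [DecidableEq Fb] [IsAlgClosed Fb] in
theorem val_five_eq_one {O : ValuationSubring Fb} (hkO : ∀ z : k, algebraMap k Fb z ∈ O) :
    O.valuation (5 : Fb) = 1 := by
  have := val_const_eq_one hkO (z := (5 : k)) (by norm_num)
  rwa [map_ofNat] at this

omit [DecidableEq Fb] [IsAlgClosed Fb] [CharZero k] in
/-- an automorphism over `k(t)` fixing a set of generators fixes the generated field -/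
theorem fixes_Mfield {σ : Fb ≃ₐ[↥k⟮t⟯] Fb} {S : Set Fb} (hS : ∀ X ∈ S, σ X = X) :
    ∀ z ∈ IntermediateField.adjoin k (insert t S), σ z = z := by
  have hσt : σ t = t := σ.commutes (tT k t)
  intro z hz
  induction hz using IntermediateField.adjoin_induction with
  | mem x hx =>
    rcases hx with rfl | hx
    · exact hσt
    · exact hS x hx
  | algebraMap x =>
    have : algebraMap k Fb x = algebraMap ↥k⟮t⟯ Fb (algebraMap k ↥k⟮t⟯ x) := rfl
    rw [this]
    exact σ.commutes _
  | add x y _ _ hx hy => rw [map_add, hx, hy]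
  | inv x _ hx => rw [map_inv₀, hx]
  | mul x y _ _ hx hy => rw [map_mul, hx, hy]

/-- **(H1)**: away from `t² - 11 t - 1 = 0`, inertia fixes `k(t, X(tateNF t [5]))` pointwise. -/
theorem fixes_of_inertia {t : Fb} (ht : t ≠ 0) (hD : t ^ 2 - 11 * t - 1 ≠ 0)
    (halg : ∀ x : Fb, IsAlgebraic ↥k⟮t⟯ x) (O : ValuationSubring Fb)
    (hkO : ∀ z : k, algebraMap k Fb z ∈ O) (hunr : ¬ O.valuation (t ^ 2 - 11 * t - 1) < 1)
    {σ : Fb ≃ₐ[↥k⟮t⟯] Fb} (hσ : σ ∈ O.inertiaSubgroupIn ↥k⟮t⟯) :
    ∀ z ∈ Mfield k t, σ z = z := by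
  refine fixes_Mfield t ?_
  have hσt : σ t = t := σ.commutes (tT k t)
  exact fixes_torsX_aux (val_two_eq_one hkO) (val_five_eq_one hkO) ht hD (baseChange_tateNF t)
    (inertiaLike_galois t halg O hσ _) hσt hunr

/-- **(H2)**: in any case `σ ^ 5` fixes `k(t, X(tateNF t [5]))` pointwise, `σ` in an inertia
group. -/
theorem pow_five_fixes_of_inertia {t : Fb} (ht : t ≠ 0) (hD : t ^ 2 - 11 * t - 1 ≠ 0)
    (halg : ∀ x : Fb, IsAlgebraic ↥k⟮t⟯ x) (O : ValuationSubring Fb)
    (hkO : ∀ z : k, algebraMap k Fb z ∈ O)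
    {σ : Fb ≃ₐ[↥k⟮t⟯] Fb} (hσ : σ ∈ O.inertiaSubgroupIn ↥k⟮t⟯) :
    ∀ z ∈ Mfield k t, (σ ^ 5) z = z := by
  refine fixes_Mfield t ?_
  have hσt : σ t = t := σ.commutes (tT k t)
  intro X hX
  have h := iterate_five_torsX_aux (val_two_eq_one hkO) (val_five_eq_one hkO) ht hD
    (baseChange_tateNF t) (inertiaLike_galois t halg O hσ _) hσt X hX
  have hpow : ∀ (n : ℕ) (x : Fb), (σ ^ n) x = (⇑(σ : Fb →+* Fb))^[n] x := by
    intro n
    induction n with
    | zero => intro x; rfl
    | succ n ih =>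
      intro x
      rw [pow_succ', AlgEquiv.mul_apply, ih, Function.iterate_succ_apply']
      rfl
  rw [hpow]; exact h

end Galois

end Fermat.Agent.SW.K1c.EGal
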