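import Mathlib
import Fermat.Agent.SW.K1.Leaves
import Fermat.Agent.SW.K1c.EContract
import Fermat.Agent.SW.K1c.EGal
import Fermat.Agent.EC.Tor.Main

/-!
# MOONSHOT S52, block K1, leaf E (GENUS 0): assembly

`leafE_of : ECore1 → EOmega → Leaves.LeafE`, where

* `EContract.ECore1` is the function-field input (unramified outside two points of the `t`-line ⇒
  rational), produced by `SW/Bridge` + `SW/FFG`;
* `EOmega` is the identification of `Ω = Qb(λ, x(EE_λ[5]))` (`Setup.OmegaF`) with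
  `EGal.Mfield Qb t = Qb(t, X(tateNF t [5]))`, produced from `SW/K1c/{TateNF, EParam}`;
* the ramification hypothesis of `ECore1` is `EGal.fixes_of_inertia` (from `SW/K1c/Unram`).

Also `descend_of : ECore2 → …` : a root in `Mfield k t` of a nonzero polynomial of degree `≤ 4`
over `k(t)` lies in `k(t)` (input of leaf I, replacing `finrank T Ω ∣ 5`).
-/

set_option autoImplicit false

open WeierstrassCurve WeierstrassCurve.Affine IntermediateField Polynomial

namespace Fermat.Agent.SW.K1c.ELeaf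

open Fermat.Agent.SW.Contracts Fermat.Agent.SW.K1 Fermat.Agent.SW.K1.Leaves
open Fermat.Agent.SW.K1c.EContract Fermat.Agent.SW.K1c.EGal Fermat.Agent.SW.K1c.TateNF

/-- **E-Omega**: the field `Ω` of leaf E is `Qb(t, X(tateNF t [5]))` for a Tate parameter `t`. -/
def EOmega : Prop :=
  ∀ (Fb : Type) [Field Fb] [Algebra F0 Fb] [Algebra Qb Fb] [CharZero Fb] [DecidableEq Fb]
    [IsAlgClosure F0 Fb] (a b : ℚ), a ≠ 0 → b ≠ 0 → 4 * a ^ 3 + 27 * b ^ 2 ≠ 0 →
    ∃ t : Fb, t ≠ 0 ∧ t ^ 2 - 11 * t - 1 ≠ 0 ∧ Transcendental Qb t ∧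
      (∀ x : Fb, IsAlgebraic ↥Qb⟮t⟯ x) ∧
      ∀ z : Fb, z ∈ OmegaF Fb (lamC a) (lamC b) 5 ↔ z ∈ Mfield Qb t

section Finite

variable {Fb : Type*} [Field Fb] [DecidableEq Fb] [IsAlgClosed Fb]

/-- the set of `X`-coordinates of the `5`-torsion is finite -/
theorem finite_torsX {t : Fb} (ht : t ≠ 0) (hD : t ^ 2 - 11 * t - 1 ≠ 0) (h5 : (5 : Fb) ≠ 0) :
    (torsX t).Finite := by
  have hΔ : (tateNF t).toAffine.Δ ≠ 0 := by
    change (tateNF t).Δ ≠ 0
    rw [tateNF_Δ]; exact mul_ne_zero (pow_ne_zero _ ht) hD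
  have hfin : Finite (Submodule.torsionBy ℤ (tateNF t).toAffine.Point ((5 : ℕ) : ℤ)) :=
    Fermat.Agent.EC.Tor.Main.finite_torsion (tateNF t).toAffine hΔ (by exact_mod_cast h5)
  have : torsX t ⊆ Set.range
      (fun Q : Submodule.torsionBy ℤ (tateNF t).toAffine.Point ((5 : ℕ) : ℤ) =>
        xCoord (Q : (tateNF t).toAffine.Point)) := by
    rintro X ⟨Q, hQ, rfl⟩
    refine ⟨⟨Q, ?_⟩, rfl⟩
    rw [Submodule.mem_torsionBy_iff, natCast_zsmul]
    exact hQ
  exact (Set.finite_range _).subset this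

end Finite

/-- **Leaf E from its two inputs.** -/
theorem leafE_of (h1 : ECore1) (hΩ : EOmega) : LeafE := by
  intro Fb _ _ _ _ _ _ a b ha hb hab
  obtain ⟨t, ht, hD, htr, halg, hiff⟩ := hΩ Fb a b ha hb hab
  have hcl : IsAlgClosed Fb := IsAlgClosure.isAlgClosed F0
  have hQcl : IsAlgClosed Qb := inferInstance
  -- the two roots of `X² - 11 X - 1` in `Qb`
  obtain ⟨α, hα⟩ := IsAlgClosed.exists_root (X ^ 2 - C (11 : Qb) * X - 1 : Qb[X])
    (by
      have : (X ^ 2 - C (11 : Qb) * X - 1 : Qb[X]).degree = 2 := by compute_degree!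
      rw [this]; norm_num)
  have hα' : α ^ 2 - 11 * α - 1 = 0 := by
    simpa [IsRoot.def] using hα
  set β : Qb := 11 - α with hβ
  have hfac : t ^ 2 - 11 * t - 1 = (t - algebraMap Qb Fb α) * (t - algebraMap Qb Fb β) := by
    have h1' : algebraMap Qb Fb (α ^ 2 - 11 * α - 1) = 0 := by rw [hα', map_zero]
    simp only [map_sub, map_mul, map_pow, map_one, map_ofNat] at h1'
    rw [hβ, map_sub, map_ofNat]
    linear_combination h1'
  -- finitely many generators
  have h5 : (5 : Fb) ≠ 0 := by norm_num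
  obtain ⟨s, hs⟩ := (finite_torsX ht hD h5).exists_finset_coe
  obtain ⟨w, hwM, hgen⟩ := h1 Qb Fb t htr halg (Mfield Qb t) s (by rw [Mfield, hs]) α β
    (fun O hkO hunr σ hσ =>
      fixes_of_inertia ht hD halg O hkO (by rwa [hfac]) hσ)
  exact ⟨w, (hiff w).mpr hwM, fun z hz => hgen z ((hiff z).mp hz)⟩

/-! ### the descent of roots of quartics (input of leaf I) -/

/-- An automorphism `σ` over `T` with `σ ^ 5` fixing a root `x` of a nonzero polynomial of degree
`≤ 4` over `T` fixes `x`. -/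
theorem fixed_of_pow_five {T Fb : Type*} [Field T] [Field Fb] [Algebra T Fb] (σ : Fb ≃ₐ[T] Fb)
    (p : T[X]) (hp0 : p ≠ 0) (hdeg : p.natDegree ≤ 4) {x : Fb} (hroot : aeval x p = 0)
    (h5 : (σ ^ 5) x = x) : σ x = x := by
  classical
  have hq0 : p.map (algebraMap T Fb) ≠ 0 := (Polynomial.map_ne_zero_iff (algebraMap T Fb).injective).mpr hp0
  have hmem : ∀ i : ℕ, (σ ^ i) x ∈ (p.map (algebraMap T Fb)).roots.toFinset := by
    intro i
    rw [Multiset.mem_toFinset, mem_roots hq0, IsRoot.def, eval_map_algebraMap]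
    have : aeval ((σ ^ i) x) p = (σ ^ i) (aeval x p) := by
      rw [← AlgEquiv.coe_toAlgHom, Polynomial.aeval_algHom_apply]
    rw [this, hroot, map_zero]
  have hcard : (p.map (algebraMap T Fb)).roots.toFinset.card < (Finset.range 5).card := by
    rw [Finset.card_range]
    calc (p.map (algebraMap T Fb)).roots.toFinset.card
        ≤ Multiset.card (p.map (algebraMap T Fb)).roots := Multiset.toFinset_card_le _
      _ ≤ (p.map (algebraMap T Fb)).natDegree := card_roots' _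
      _ ≤ p.natDegree := natDegree_map_le
      _ < 5 := by omega
  obtain ⟨i, hi, j, hj, hij, heq⟩ := Finset.exists_ne_map_eq_of_card_lt_of_maps_to hcard
    (fun i _ => hmem i)
  rw [Finset.mem_range] at hi hj
  -- WLOG `i < j`
  have key : ∀ i j : ℕ, i < j → j < 5 → (σ ^ i) x = (σ ^ j) x → σ x = x := by
    intro i j hlt hj5 heq
    have h1 : (σ ^ (j - i)) x = x := by
      have : (σ ^ i) ((σ ^ (j - i)) x) = (σ ^ i) x := by
        rw [← AlgEquiv.mul_apply, ← pow_add, Nat.add_sub_cancel' hlt.le, heq]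
      exact (σ ^ i).injective this
    have hm : 1 ≤ j - i ∧ j - i ≤ 4 := by omega
    obtain ⟨m, hm'⟩ : ∃ m, m = j - i := ⟨_, rfl⟩
    rw [← hm'] at h1 hm
    have h4 : (σ ^ 5) x = σ ((σ ^ 4) x) := by rw [pow_succ', AlgEquiv.mul_apply]
    have h6 : (σ ^ 6) x = σ ((σ ^ 5) x) := by rw [pow_succ', AlgEquiv.mul_apply]
    rcases hm with ⟨hm1, hm4⟩
    interval_cases m
    · simpa using h1
    · have : (σ ^ 4) x = x := by
        have : (σ ^ 4) x = (σ ^ 2) ((σ ^ 2) x) := by rw [← AlgEquiv.mul_apply, ← pow_add]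
        rw [this, h1, h1]
      calc σ x = σ ((σ ^ 4) x) := by rw [this]
        _ = (σ ^ 5) x := h4.symm
        _ = x := h5
    · have : (σ ^ 6) x = x := by
        have : (σ ^ 6) x = (σ ^ 3) ((σ ^ 3) x) := by rw [← AlgEquiv.mul_apply, ← pow_add]
        rw [this, h1, h1]
      rw [h6, h5] at this
      exact this
    · calc σ x = σ ((σ ^ 4) x) := by rw [h1]
        _ = (σ ^ 5) x := h4.symm
        _ = x := h5
  rcases lt_or_gt_of_ne hij with hlt | hlt
  · exact key i j hlt hj heq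
  · exact key j i hlt hi heq.symm

/-- **Descent of roots of quartics**: a root in `k(t, X(tateNF t [5]))` of a nonzero polynomial of
degree `≤ 4` over `k(t)` lies in `k(t)`. -/
theorem descend_of (h2 : ECore2) {k Fb : Type} [Field k] [Field Fb] [Algebra k Fb] [IsAlgClosed k]
    [CharZero k] [IsAlgClosed Fb] [DecidableEq Fb] {t : Fb} (ht : t ≠ 0)
    (hD : t ^ 2 - 11 * t - 1 ≠ 0) (htr : Transcendental k t)
    (halg : ∀ x : Fb, IsAlgebraic ↥k⟮t⟯ x) (p : (↥k⟮t⟯)[X]) (hp0 : p ≠ 0)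
    (hdeg : p.natDegree ≤ 4) {x : Fb} (hx : x ∈ Mfield k t) (hroot : aeval x p = 0) :
    x ∈ k⟮t⟯ := by
  refine h2 k Fb t htr halg x (fun O hkO σ hσ => ?_)
  exact fixed_of_pow_five σ p hp0 hdeg hroot
    (pow_five_fixes_of_inertia ht hD halg O hkO hσ x hx)

end Fermat.Agent.SW.K1c.ELeaf
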