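import Mathlib
import Fermat.Agent.SW.K1c.TateNF

/-!
# MOONSHOT S52, block K1c, leaf E-param (core): the Tate parameter of a point of order 5 on a
short Weierstrass curve — polynomial identities

`L` a field of characteristic `0`, `A B x₀ y₀ t : L`, `C : VariableChange L` with `C.r = x₀`,
`C.t = y₀`, `t ≠ 0` and `C • short A B = tateNF t` (the output of `TateNF.exists_tateNF` for the
curve `short A B : y² = x³ + A x + B` and its point `(x₀, y₀)` of order `5`).  Then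

* `y_sq` : `y₀² = x₀³ + A x₀ + B`, `y_ne_zero : y₀ ≠ 0`;
* `u_pow_four_mul_c₄` : `u⁴ c₄(t) = -48 A`, `u_pow_six_mul_c₆ : u⁶ c₆(t) = -864 B`;
* `t_formula` : `t · 256 (x₀³ + A x₀ + B)⁴ = ((A + 3 x₀²)² - 12 x₀ (x₀³ + A x₀ + B))³`
  — so `t` is a rational function of `A, B, x₀` alone (no `y₀`: invariance under `P₀ ↦ -P₀`);
* `x_formula` : `12 x₀ = u² ((1 - t)² - 4 t)`;
and for `A = a lam`, `B = b lam` with `a b lam ≠ 0`:
* `lam_formula` : `27 b² c₄(t)³ = -4 a³ lam c₆(t)²`;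
* `u_sq_formula` : `u² (a c₆(t)) = 18 b c₄(t)`; `c₄_ne_zero`, `c₆_ne_zero`.
-/

set_option autoImplicit false
set_option linter.unusedSectionVars false

namespace Fermat.Agent.SW.K1c.EParamCore

open WeierstrassCurve Fermat.Agent.SW.K1c.TateNF

/-- The short Weierstrass curve `y² = x³ + A x + B`. -/
def short {K : Type*} [CommRing K] (A B : K) : WeierstrassCurve K := ⟨0, 0, 0, A, B⟩

variable {L : Type*} [Field L] [CharZero L] {A B x₀ y₀ t : L} {C : VariableChange L}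

section Basic

variable (hr : C.r = x₀) (ht' : C.t = y₀) (hC : C • short A B = tateNF t)

include hr ht' hC

/-- The five coefficient equations, cleared of `u⁻¹`. -/
theorem coeff_eqs :
    2 * C.s = (C.u : L) * (1 - t) ∧ 3 * x₀ - C.s ^ 2 = -t * (C.u : L) ^ 2 ∧
      2 * y₀ = -t * (C.u : L) ^ 3 ∧ A + 3 * x₀ ^ 2 = 2 * C.s * y₀ ∧
      y₀ ^ 2 = x₀ ^ 3 + A * x₀ + B := by
  have huv : (C.u : L) * ((C.u⁻¹ : Lˣ) : L) = 1 := by
    rw [← Units.val_mul, mul_inv_cancel, Units.val_one]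
  have hv0 : ((C.u⁻¹ : Lˣ) : L) ≠ 0 := (C.u⁻¹).ne_zero
  set u : L := (C.u : L) with hu
  set v : L := ((C.u⁻¹ : Lˣ) : L) with hv
  have e1 := congrArg WeierstrassCurve.a₁ hC
  have e2 := congrArg WeierstrassCurve.a₂ hC
  have e3 := congrArg WeierstrassCurve.a₃ hC
  have e4 := congrArg WeierstrassCurve.a₄ hC
  have e6 := congrArg WeierstrassCurve.a₆ hC
  rw [variableChange_a₁] at e1
  rw [variableChange_a₂] at e2
  rw [variableChange_a₃] at e3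
  rw [variableChange_a₄] at e4
  rw [variableChange_a₆] at e6
  simp only [short, tateNF, hr, ht', ← hv] at e1 e2 e3 e4 e6
  -- e1 : v * (0 + 2 * C.s) = 1 - t, ...
  have e4' : A + 3 * x₀ ^ 2 - 2 * C.s * y₀ = 0 := by
    have : v ^ 4 ≠ 0 := pow_ne_zero _ hv0
    have h := e4
    have h2 : v ^ 4 * (A + 3 * x₀ ^ 2 - 2 * C.s * y₀) = 0 := by linear_combination h
    exact (mul_eq_zero.mp h2).resolve_left this
  have e6' : B + x₀ * A + x₀ ^ 3 - y₀ ^ 2 = 0 := by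
    have : v ^ 6 ≠ 0 := pow_ne_zero _ hv0
    have h2 : v ^ 6 * (B + x₀ * A + x₀ ^ 3 - y₀ ^ 2) = 0 := by linear_combination e6
    exact (mul_eq_zero.mp h2).resolve_left this
  refine ⟨?_, ?_, ?_, ?_, ?_⟩
  · linear_combination u * e1 - 2 * C.s * huv
  · linear_combination (u ^ 2) * e2 - (3 * x₀ - C.s ^ 2) * (u * v + 1) * huv
  · linear_combination (u ^ 3) * e3 - (2 * y₀) * (u ^ 2 * v ^ 2 + u * v + 1) * huv
  · linear_combination e4'
  · linear_combination -e6'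

theorem y_sq : y₀ ^ 2 = x₀ ^ 3 + A * x₀ + B := (coeff_eqs hr ht' hC).2.2.2.2

theorem u_pow_four_mul_c₄ :
    (C.u : L) ^ 4 * (t ^ 4 - 12 * t ^ 3 + 14 * t ^ 2 + 12 * t + 1) = -48 * A := by
  have huv : (C.u : L) * ((C.u⁻¹ : Lˣ) : L) = 1 := by
    rw [← Units.val_mul, mul_inv_cancel, Units.val_one]
  have h := congrArg WeierstrassCurve.c₄ hC
  rw [variableChange_c₄, tateNF_c₄] at h
  have hs : (short A B).c₄ = -48 * A := by
    simp only [short, WeierstrassCurve.c₄, WeierstrassCurve.b₂, WeierstrassCurve.b₄]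
    ring
  rw [hs] at h
  rw [← h]
  have : (C.u : L) ^ 4 * (((C.u⁻¹ : Lˣ) : L) ^ 4 * (-48 * A))
      = ((C.u : L) * ((C.u⁻¹ : Lˣ) : L)) ^ 4 * (-48 * A) := by ring
  rw [this, huv]
  ring

theorem u_pow_six_mul_c₆ :
    (C.u : L) ^ 6 * (-(t ^ 6 - 18 * t ^ 5 + 75 * t ^ 4 + 75 * t ^ 2 + 18 * t + 1)) = -864 * B := by
  have huv : (C.u : L) * ((C.u⁻¹ : Lˣ) : L) = 1 := by
    rw [← Units.val_mul, mul_inv_cancel, Units.val_one]
  have h := congrArg WeierstrassCurve.c₆ hC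
  rw [variableChange_c₆, tateNF_c₆] at h
  have hs : (short A B).c₆ = -864 * B := by
    simp only [short, WeierstrassCurve.c₆, WeierstrassCurve.b₂, WeierstrassCurve.b₄,
      WeierstrassCurve.b₆]
    ring
  rw [hs] at h
  rw [← h]
  have : (C.u : L) ^ 6 * (((C.u⁻¹ : Lˣ) : L) ^ 6 * (-864 * B))
      = ((C.u : L) * ((C.u⁻¹ : Lˣ) : L)) ^ 6 * (-864 * B) := by ring
  rw [this, huv]
  ring

/-- `12 x₀ = u² ((1 - t)² - 4 t)`. -/
theorem x_formula : 12 * x₀ = (C.u : L) ^ 2 * ((1 - t) ^ 2 - 4 * t) := by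
  obtain ⟨F1, F2, -, -, -⟩ := coeff_eqs hr ht' hC
  linear_combination (2 * C.s + (C.u : L) * (1 - t)) * F1 + 4 * F2

variable (ht : t ≠ 0)

include ht

theorem y_ne_zero : y₀ ≠ 0 := by
  obtain ⟨-, -, F3, -, -⟩ := coeff_eqs hr ht' hC
  intro h0
  rw [h0, mul_zero] at F3
  have : t * (C.u : L) ^ 3 = 0 := by linear_combination F3
  have h3 : (C.u : L) ^ 3 ≠ 0 := pow_ne_zero _ C.u.ne_zero
  exact (mul_ne_zero ht h3) this

omit ht in
/-- **`t` is a rational function of `A, B, x₀`** (no `y₀`). -/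
theorem t_formula :
    t * (256 * (x₀ ^ 3 + A * x₀ + B) ^ 4)
      = ((A + 3 * x₀ ^ 2) ^ 2 - 12 * x₀ * (x₀ ^ 3 + A * x₀ + B)) ^ 3 := by
  obtain ⟨-, F2, F3, F4, F6⟩ := coeff_eqs hr ht' hC
  rw [← F6, F4]
  have h1 : (2 * C.s * y₀) ^ 2 - 12 * x₀ * y₀ ^ 2 = 4 * y₀ ^ 2 * (t * (C.u : L) ^ 2) := by
    linear_combination (-4 * y₀ ^ 2) * F2
  have h2 : t ^ 2 * (C.u : L) ^ 6 = 4 * y₀ ^ 2 := by
    linear_combination (-(2 * y₀ - t * (C.u : L) ^ 3)) * F3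
  rw [h1]
  linear_combination (-(64 * y₀ ^ 6 * t)) * h2

theorem x_cube_ne_zero : x₀ ^ 3 + A * x₀ + B ≠ 0 := by
  rw [← y_sq hr ht' hC]
  exact pow_ne_zero _ (y_ne_zero hr ht' hC ht)

end Basic

section Family

variable {a b lam : L} (hr : C.r = x₀) (ht' : C.t = y₀)
  (hC : C • short (a * lam) (b * lam) = tateNF t) (ha : a ≠ 0) (hb : b ≠ 0) (hlam : lam ≠ 0)

include hr ht' hC

theorem c₄_ne_zero (ha : a ≠ 0) (hlam : lam ≠ 0) :
    t ^ 4 - 12 * t ^ 3 + 14 * t ^ 2 + 12 * t + 1 ≠ 0 := by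
  intro h0
  have h := u_pow_four_mul_c₄ hr ht' hC
  rw [h0, mul_zero] at h
  have : a * lam = 0 := by linear_combination (1 / 48 : L) * h
  exact mul_ne_zero ha hlam this

theorem c₆_ne_zero (hb : b ≠ 0) (hlam : lam ≠ 0) :
    -(t ^ 6 - 18 * t ^ 5 + 75 * t ^ 4 + 75 * t ^ 2 + 18 * t + 1) ≠ 0 := by
  intro h0
  have h := u_pow_six_mul_c₆ hr ht' hC
  rw [h0, mul_zero] at h
  have : b * lam = 0 := by linear_combination (1 / 864 : L) * h
  exact mul_ne_zero hb hlam this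

/-- `lam` is a Möbius function of `j(t)`: `27 b² c₄(t)³ = -4 a³ lam c₆(t)²`. -/
theorem lam_formula :
    27 * b ^ 2 * (t ^ 4 - 12 * t ^ 3 + 14 * t ^ 2 + 12 * t + 1) ^ 3
      = -4 * a ^ 3 * lam *
        (-(t ^ 6 - 18 * t ^ 5 + 75 * t ^ 4 + 75 * t ^ 2 + 18 * t + 1)) ^ 2 := by
  have G4 := u_pow_four_mul_c₄ hr ht' hC
  have G6 := u_pow_six_mul_c₆ hr ht' hC
  set c4 : L := t ^ 4 - 12 * t ^ 3 + 14 * t ^ 2 + 12 * t + 1 with hc4
  set c6 : L := -(t ^ 6 - 18 * t ^ 5 + 75 * t ^ 4 + 75 * t ^ 2 + 18 * t + 1) with hc6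
  have hu12 : (C.u : L) ^ 12 ≠ 0 := pow_ne_zero _ C.u.ne_zero
  have key : (27 * b ^ 2 * c4 ^ 3 + 4 * a ^ 3 * lam * c6 ^ 2) * (C.u : L) ^ 12 = 0 := by
    linear_combination
      (27 * b ^ 2 * (((C.u : L) ^ 4 * c4) ^ 2 + ((C.u : L) ^ 4 * c4) * (-48 * (a * lam))
        + (-48 * (a * lam)) ^ 2)) * G4
      + (4 * a ^ 3 * lam * ((C.u : L) ^ 6 * c6 + (-864 * (b * lam)))) * G6
  have := (mul_eq_zero.mp key).resolve_right hu12
  linear_combination this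

/-- `u² (a c₆(t)) = 18 b c₄(t)`. -/
theorem u_sq_formula (hlam : lam ≠ 0) :
    (C.u : L) ^ 2 * (a * (-(t ^ 6 - 18 * t ^ 5 + 75 * t ^ 4 + 75 * t ^ 2 + 18 * t + 1)))
      = 18 * b * (t ^ 4 - 12 * t ^ 3 + 14 * t ^ 2 + 12 * t + 1) := by
  have G4 := u_pow_four_mul_c₄ hr ht' hC
  have G6 := u_pow_six_mul_c₆ hr ht' hC
  set c4 : L := t ^ 4 - 12 * t ^ 3 + 14 * t ^ 2 + 12 * t + 1 with hc4
  set c6 : L := -(t ^ 6 - 18 * t ^ 5 + 75 * t ^ 4 + 75 * t ^ 2 + 18 * t + 1) with hc6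
  have hne : (C.u : L) ^ 4 * lam ≠ 0 := mul_ne_zero (pow_ne_zero _ C.u.ne_zero) hlam
  have key : ((C.u : L) ^ 2 * (a * c6) - 18 * b * c4) * ((C.u : L) ^ 4 * lam) = 0 := by
    linear_combination (a * lam) * G6 - (18 * b * lam) * G4
  have := (mul_eq_zero.mp key).resolve_right hne
  linear_combination this

end Family

end Fermat.Agent.SW.K1c.EParamCore
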