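import Mathlib
import Fermat.Agent.SW.K1c.EParamCore

/-!
# MOONSHOT S52, block K1c, leaf E-param: `k(lam, x(P₀)) = k(t)`

`k ⊆ L` fields of characteristic `0`, `a b : k` nonzero, `lam : L` nonzero, `(x₀, y₀)` a point of
order `5` on `y² = x³ + a lam x + b lam` over `L`, with Tate normal form `C • short .. = tateNF t`
(`C.r = x₀`, `C.t = y₀`, `t ≠ 0`; `TateNF.exists_tateNF`).  Then, as intermediate fields of `L/k`,

  `k(lam, x₀) = k(t)`        (`adjoin_lam_x_eq_adjoin_t`),

`u² ∈ k(t)` (`u_sq_mem`), and `t` is transcendental over `k` as soon as `lam` is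
(`transcendental_t`).  Since `x = u² X + x₀` relates the `x`-coordinates on the two models, the
field generated over `k(lam)` by the `x`-coordinates of the `5`-torsion is generated over `k(t)`
by the `X`-coordinates of the `5`-torsion of `tateNF t`.

The statement is generic in `k`: `k = Qb` gives `T = Qb(t)`, `k = ℚ` gives `ℚ(lam, x₀) = ℚ(t)`.
-/

set_option autoImplicit false
set_option linter.unusedSectionVars false

namespace Fermat.Agent.SW.K1c.EParam

open WeierstrassCurve IntermediateField Fermat.Agent.SW.K1c.TateNF Fermat.Agent.SW.K1c.EParamCore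

variable {k L : Type*} [Field k] [Field L] [Algebra k L] [CharZero L] {a b : k}
  {lam x₀ y₀ t : L} {C : VariableChange L} (hr : C.r = x₀) (ht' : C.t = y₀) (ht : t ≠ 0)
  (hC : C • short (algebraMap k L a * lam) (algebraMap k L b * lam) = tateNF t)
  (ha : a ≠ 0) (hb : b ≠ 0) (hlam : lam ≠ 0)

include hr ht' hC

private theorem c4_mem (K : IntermediateField k L) (htK : t ∈ K) :
    t ^ 4 - 12 * t ^ 3 + 14 * t ^ 2 + 12 * t + 1 ∈ K := by
  have h12 : (12 : L) ∈ K := by exact_mod_cast K.natCast_mem 12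
  have h14 : (14 : L) ∈ K := by exact_mod_cast K.natCast_mem 14
  exact K.add_mem (K.add_mem (K.add_mem (K.sub_mem (pow_mem htK 4)
    (K.mul_mem h12 (pow_mem htK 3))) (K.mul_mem h14 (pow_mem htK 2)))
    (K.mul_mem h12 htK)) K.one_mem

private theorem c6_mem (K : IntermediateField k L) (htK : t ∈ K) :
    -(t ^ 6 - 18 * t ^ 5 + 75 * t ^ 4 + 75 * t ^ 2 + 18 * t + 1) ∈ K := by
  have h18 : (18 : L) ∈ K := by exact_mod_cast K.natCast_mem 18
  have h75 : (75 : L) ∈ K := by exact_mod_cast K.natCast_mem 75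
  exact K.neg_mem (K.add_mem (K.add_mem (K.add_mem (K.add_mem (K.sub_mem (pow_mem htK 6)
    (K.mul_mem h18 (pow_mem htK 5))) (K.mul_mem h75 (pow_mem htK 4)))
    (K.mul_mem h75 (pow_mem htK 2))) (K.mul_mem h18 htK)) K.one_mem)

include ht in
/-- `t ∈ k(lam, x₀)`. -/
theorem t_mem : t ∈ adjoin k ({lam, x₀} : Set L) := by
  set K := adjoin k ({lam, x₀} : Set L) with hK
  have hl : lam ∈ K := subset_adjoin k _ (by simp)
  have hx : x₀ ∈ K := subset_adjoin k _ (by simp)
  have hA : algebraMap k L a * lam ∈ K := K.mul_mem (K.algebraMap_mem a) hl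
  have hB : algebraMap k L b * lam ∈ K := K.mul_mem (K.algebraMap_mem b) hl
  have hY : x₀ ^ 3 + algebraMap k L a * lam * x₀ + algebraMap k L b * lam ∈ K :=
    K.add_mem (K.add_mem (pow_mem hx 3) (K.mul_mem hA hx)) hB
  have h3 : (3 : L) ∈ K := by exact_mod_cast K.natCast_mem 3
  have h12 : (12 : L) ∈ K := by exact_mod_cast K.natCast_mem 12
  have h256 : (256 : L) ∈ K := by exact_mod_cast K.natCast_mem 256
  have hN : (algebraMap k L a * lam + 3 * x₀ ^ 2) ^ 2
      - 12 * x₀ * (x₀ ^ 3 + algebraMap k L a * lam * x₀ + algebraMap k L b * lam) ∈ K :=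
    K.sub_mem (pow_mem (K.add_mem hA (K.mul_mem h3 (pow_mem hx 2))) 2)
      (K.mul_mem (K.mul_mem h12 hx) hY)
  have hform := t_formula hr ht' hC
  have hne : (256 : L) * (x₀ ^ 3 + algebraMap k L a * lam * x₀ + algebraMap k L b * lam) ^ 4 ≠ 0 :=
    mul_ne_zero (by norm_num) (pow_ne_zero _ (x_cube_ne_zero hr ht' hC ht))
  rw [eq_div_of_mul_eq hne hform]
  exact K.div_mem (pow_mem hN 3) (K.mul_mem h256 (pow_mem hY 4))

include ha hb hlam in
/-- `lam ∈ k(t)`. -/
theorem lam_mem : lam ∈ adjoin k ({t} : Set L) := by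
  set K := adjoin k ({t} : Set L) with hK
  have htK : t ∈ K := subset_adjoin k _ (by simp)
  have hc4 := c4_mem hr ht' hC K htK
  have hc6 := c6_mem hr ht' hC K htK
  have haL : algebraMap k L a ≠ 0 := (map_ne_zero _).mpr ha
  have hbL : algebraMap k L b ≠ 0 := (map_ne_zero _).mpr hb
  have hform := lam_formula hr ht' hC
  have hc6ne := c₆_ne_zero hr ht' hC hbL hlam
  have hden : -4 * algebraMap k L a ^ 3
      * (-(t ^ 6 - 18 * t ^ 5 + 75 * t ^ 4 + 75 * t ^ 2 + 18 * t + 1)) ^ 2 ≠ 0 :=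
    mul_ne_zero (mul_ne_zero (by norm_num) (pow_ne_zero _ haL)) (pow_ne_zero _ hc6ne)
  have h4 : (-4 : L) ∈ K := K.neg_mem (by exact_mod_cast K.natCast_mem 4)
  have h27 : (27 : L) ∈ K := by exact_mod_cast K.natCast_mem 27
  have e : lam = 27 * algebraMap k L b ^ 2
      * (t ^ 4 - 12 * t ^ 3 + 14 * t ^ 2 + 12 * t + 1) ^ 3
      / (-4 * algebraMap k L a ^ 3
        * (-(t ^ 6 - 18 * t ^ 5 + 75 * t ^ 4 + 75 * t ^ 2 + 18 * t + 1)) ^ 2) := by
    rw [eq_div_iff hden]
    linear_combination -hform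
  rw [e]
  exact K.div_mem (K.mul_mem (K.mul_mem h27 (pow_mem (K.algebraMap_mem b) 2)) (pow_mem hc4 3))
    (K.mul_mem (K.mul_mem h4 (pow_mem (K.algebraMap_mem a) 3)) (pow_mem hc6 2))

include ha hb hlam in
/-- `u² ∈ k(t)`. -/
theorem u_sq_mem : (C.u : L) ^ 2 ∈ adjoin k ({t} : Set L) := by
  set K := adjoin k ({t} : Set L) with hK
  have htK : t ∈ K := subset_adjoin k _ (by simp)
  have hc4 := c4_mem hr ht' hC K htK
  have hc6 := c6_mem hr ht' hC K htK
  have haL : algebraMap k L a ≠ 0 := (map_ne_zero _).mpr ha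
  have hbL : algebraMap k L b ≠ 0 := (map_ne_zero _).mpr hb
  have hform := u_sq_formula hr ht' hC hlam
  have hc6ne := c₆_ne_zero hr ht' hC hbL hlam
  have hden : algebraMap k L a
      * (-(t ^ 6 - 18 * t ^ 5 + 75 * t ^ 4 + 75 * t ^ 2 + 18 * t + 1)) ≠ 0 :=
    mul_ne_zero haL hc6ne
  have h18 : (18 : L) ∈ K := by exact_mod_cast K.natCast_mem 18
  rw [eq_div_of_mul_eq hden hform]
  exact K.div_mem (K.mul_mem (K.mul_mem h18 (K.algebraMap_mem b)) hc4)
    (K.mul_mem (K.algebraMap_mem a) hc6)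

include ha hb hlam in
/-- `x₀ ∈ k(t)`. -/
theorem x_mem : x₀ ∈ adjoin k ({t} : Set L) := by
  set K := adjoin k ({t} : Set L) with hK
  have htK : t ∈ K := subset_adjoin k _ (by simp)
  have hu := u_sq_mem hr ht' hC ha hb hlam
  have hform := x_formula hr ht' hC
  have h12 : (12 : L) ∈ K := by exact_mod_cast K.natCast_mem 12
  have h4 : (4 : L) ∈ K := by exact_mod_cast K.natCast_mem 4
  have e : x₀ = (C.u : L) ^ 2 * ((1 - t) ^ 2 - 4 * t) / 12 := by
    rw [eq_div_iff (by norm_num : (12 : L) ≠ 0)]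
    linear_combination hform
  rw [e]
  exact K.div_mem (K.mul_mem hu (K.sub_mem (pow_mem (K.sub_mem K.one_mem htK) 2)
    (K.mul_mem h4 htK))) h12

include ht ha hb hlam in
/-- **E-param**: `k(lam, x₀) = k(t)`. -/
theorem adjoin_lam_x_eq_adjoin_t :
    adjoin k ({lam, x₀} : Set L) = adjoin k ({t} : Set L) := by
  apply le_antisymm
  · rw [adjoin_le_iff]
    rintro z (rfl | rfl)
    · exact lam_mem hr ht' hC ha hb hlam
    · exact x_mem hr ht' hC ha hb hlam
  · rw [adjoin_le_iff]
    rintro z rfl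
    exact t_mem hr ht' ht hC

include ha hb hlam in
/-- `t` is transcendental over `k` as soon as `lam` is. -/
theorem transcendental_t (hl : Transcendental k lam) : Transcendental k t := by
  intro halg
  apply hl
  have hint : IsIntegral k t := halg.isIntegral
  have : Algebra.IsAlgebraic k (adjoin k ({t} : Set L)) :=
    IntermediateField.isAlgebraic_adjoin_simple hint
  have h1 := lam_mem hr ht' hC ha hb hlam
  have h2 : IsAlgebraic k (⟨lam, h1⟩ : adjoin k ({t} : Set L)) := Algebra.IsAlgebraic.isAlgebraic _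
  simpa using h2.algebraMap (A := L)

include ha hb hlam in
/-- Transport of `x`-coordinates: for an intermediate field `K ⊇ k(t)`, the `x`-coordinate
`u² X + x₀` of the image under `LR.VarChangePoint.pointEquiv` of a point `(X, Y)` of `tateNF t`
lies in `K` iff `X` does. -/
theorem vcX_mem_iff (K : IntermediateField k L) (htK : t ∈ K) (X : L) :
    Fermat.Agent.LR.VarChangePoint.vcX C X ∈ K ↔ X ∈ K := by
  have hle : adjoin k ({t} : Set L) ≤ K := by
    rw [adjoin_le_iff]
    rintro z rfl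
    exact htK
  have hu : (C.u : L) ^ 2 ∈ K := hle (u_sq_mem hr ht' hC ha hb hlam)
  have hx : C.r ∈ K := by rw [hr]; exact hle (x_mem hr ht' hC ha hb hlam)
  have hu0 : (C.u : L) ^ 2 ≠ 0 := pow_ne_zero _ C.u.ne_zero
  unfold Fermat.Agent.LR.VarChangePoint.vcX
  constructor
  · intro h
    have h1 : (C.u : L) ^ 2 * X ∈ K := by
      have := K.sub_mem h hx
      simpa using this
    have h2 := K.div_mem h1 hu
    rwa [mul_div_cancel_left₀ _ hu0] at h2
  · intro h
    exact K.add_mem (K.mul_mem hu h) hx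

end Fermat.Agent.SW.K1c.EParam
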