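import Mathlib
import Fermat.Agent.SW.K1c.ELeaf
import Fermat.Agent.SW.K1c.EParam
import Fermat.Agent.LR.VarChangePoint
import Fermat.Agent.EC.Tor.Main

/-!
# MOONSHOT S52, block K1, leaf E (GENUS 0): the input `ELeaf.EOmega`

`Fb` an algebraic closure of `F0 = ℚ(X)` containing `Qb`, `lam := X ∈ Fb`,
`EE : y² = x³ + a lam x + b lam` (`a b ≠ 0`, `4 a³ + 27 b² ≠ 0`), `Ω = Setup.OmegaF` the field
generated over `ℚ(X)` by `Qb` and the `x`-coordinates of `EE[5]`.  Then there is a Tate parameter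
`t ∈ Fb` (`t ≠ 0`, `t² - 11 t - 1 ≠ 0`, transcendental over `Qb`, `Fb` algebraic over `Qb(t)`)
with

  `Ω = Qb(t, X(tateNF t [5])) = EGal.Mfield Qb t`     (elementwise).

Route (finding #1478): a point `(x₀, y₀)` of order `5` (`EC/Tor/Main`), its Tate normal form
`C • EE = tateNF t` (`K1c/TateNF.exists_tateNF`), `Qb(lam, x₀) = Qb(t)`, `u² ∈ Qb(t)`
(`K1c/EParam`), and the `x`-coordinates correspond by `x = u² X + x₀`
(`LR/VarChangePoint.pointEquiv`).

Branch-only work (helper18).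
-/

set_option autoImplicit false
set_option linter.unusedSectionVars false

open Polynomial IntermediateField WeierstrassCurve WeierstrassCurve.Affine

namespace Fermat.Agent.SW.K1c.EOmegaProof

open Fermat.Agent.SW.Contracts Fermat.Agent.SW.K1 Fermat.Agent.SW.K1.Leaves
open Fermat.Agent.SW.K1c.TateNF Fermat.Agent.SW.K1c.EGal Fermat.Agent.SW.K1c.ELeaf
open Fermat.Agent.SW.K1c.EParamCore Fermat.Agent.LR.VarChangePoint

/-! ### The field `Fb` over the constants and the parameter -/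

section Field

variable {Fb : Type} [Field Fb] [Algebra F0 Fb] [Algebra Qb Fb] [CharZero Fb]

theorem algebraMap_ratC (a : ℚ) : algebraMap F0 Fb (RatFunc.C a) = algebraMap Qb Fb (a : Qb) := by
  have h : (RatFunc.C a : F0) = ((a : ℚ) : F0) := by
    have := map_ratCast (RatFunc.C : ℚ →+* F0) a
    rwa [Rat.cast_id] at this
  rw [h, map_ratCast, map_ratCast]

theorem algebraMap_lamC (a : ℚ) :
    algebraMap F0 Fb (lamC a) = algebraMap Qb Fb (a : Qb) * algebraMap F0 Fb RatFunc.X := by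
  rw [lamC, map_mul, algebraMap_ratC]

/-- An intermediate field of `Fb / Qb` containing the parameter contains `ℚ(X)`. -/
theorem algebraMap_mem_of_lam_mem (K : IntermediateField Qb Fb)
    (h : algebraMap F0 Fb RatFunc.X ∈ K) (f : F0) : algebraMap F0 Fb f ∈ K := by
  have hpoly : ∀ p : ℚ[X], algebraMap F0 Fb (algebraMap ℚ[X] F0 p) ∈ K := by
    intro p
    have e : algebraMap F0 Fb (algebraMap ℚ[X] F0 p) = aeval (algebraMap F0 Fb RatFunc.X) p := by
      have : (algebraMap F0 Fb).comp (algebraMap ℚ[X] F0) =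
          (aeval (algebraMap F0 Fb RatFunc.X) : ℚ[X] →ₐ[ℚ] Fb).toRingHom := by
        apply Polynomial.ringHom_ext
        · intro c
          simp only [RingHom.comp_apply, AlgHom.toRingHom_eq_coe, RingHom.coe_coe, aeval_C]
          rw [RatFunc.algebraMap_C, algebraMap_ratC, map_ratCast, eq_ratCast]
        · simp only [RingHom.comp_apply, AlgHom.toRingHom_eq_coe, RingHom.coe_coe, aeval_X,
            RatFunc.algebraMap_X]
      exact congrArg (fun g : ℚ[X] →+* Fb => g p) this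
    rw [e, aeval_eq_sum_range]
    refine K.sum_mem fun i _ => ?_
    rw [Algebra.smul_def, eq_ratCast]
    exact K.mul_mem (SubfieldClass.ratCast_mem K _) (pow_mem h i)
  induction f using RatFunc.induction_on with
  | f p q _ =>
    rw [map_div₀]
    exact K.div_mem (hpoly p) (hpoly q)

/-- The parameter is transcendental over the constants. -/
theorem transcendental_lam : Transcendental Qb (algebraMap F0 Fb RatFunc.X) := by
  have h1 : Transcendental ℚ (RatFunc.X : F0) := by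
    rw [← RatFunc.algebraMap_X]
    exact (transcendental_algebraMap_iff (IsFractionRing.injective ℚ[X] F0)).mpr
      (Polynomial.transcendental_X ℚ)
  have h2 : Transcendental ℚ (algebraMap F0 Fb RatFunc.X) :=
    (transcendental_algebraMap_iff (algebraMap F0 Fb).injective).mpr h1
  have hST : @IsScalarTower ℚ Qb Fb Algebra.toSMul Algebra.toSMul Algebra.toSMul :=
    IsScalarTower.of_algebraMap_eq' (Subsingleton.elim _ _)
  intro h
  have : Algebra.IsAlgebraic ℚ Qb := isAlgClosure_rat.isAlgebraic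
  exact h2 (h.restrictScalars ℚ)

/-- The base change of the generic curve to `Fb` in the vocabulary of `K1c/EParamCore`. -/
theorem baseChange_genW (a b : ℚ) :
    ((genW (lamC a) (lamC b)).toAffine⁄Fb) =
      short (algebraMap Qb Fb (a : Qb) * algebraMap F0 Fb RatFunc.X)
        (algebraMap Qb Fb (b : Qb) * algebraMap F0 Fb RatFunc.X) := by
  change (genW (lamC a) (lamC b)).map (algebraMap F0 Fb) = _
  ext <;> simp [genW, short, WeierstrassCurve.map, algebraMap_lamC]

/-- `Fb` is algebraic over an intermediate field of `Fb / Qb` containing the parameter. -/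
theorem isAlgebraic_of_lam_mem [IsAlgClosure F0 Fb] (T : IntermediateField Qb Fb)
    (hT : algebraMap F0 Fb RatFunc.X ∈ T) (x : Fb) : IsAlgebraic ↥T x := by
  have hF0 := algebraMap_mem_of_lam_mem T hT
  let _ : Algebra F0 T := ((algebraMap F0 Fb).codRestrict T hF0).toAlgebra
  have : IsScalarTower F0 T Fb := IsScalarTower.of_algebraMap_eq fun f => rfl
  have : Algebra.IsAlgebraic F0 Fb := IsAlgClosure.isAlgebraic
  have : Algebra.IsAlgebraic T Fb := Algebra.IsAlgebraic.tower_top (K := F0) T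
  exact Algebra.IsAlgebraic.isAlgebraic x

end Field

/-! ### Transport of points along `C • W = W'` -/

section Transport

variable {F : Type*} [Field F] [DecidableEq F]

/-- The equivalence `W'(F) ≃+ W(F)` for `C • W = W'`, `(X, Y) ↦ (u² X + r, u³ Y + u² s X + t)`. -/
theorem exists_pointEquiv_of_smul_eq {W W' : WeierstrassCurve F} (C : VariableChange F)
    (hC : C • W = W') :
    ∃ e : W'.toAffine.Point ≃+ W.toAffine.Point,
      ∀ (X Y : F) (h : W'.toAffine.Nonsingular X Y),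
        ∃ h' : W.toAffine.Nonsingular (vcX C X) (vcY C X Y),
          e (Point.some X Y h) = Point.some (vcX C X) (vcY C X Y) h' := by
  subst hC
  exact ⟨pointEquiv W C, fun X Y h => ⟨_, pointEquiv_some W C h⟩⟩

end Transport

/-! ### The theorem -/

/-- The strong form of `EOmega`: in addition `X ∈ Qb(t)`. -/
theorem eOmega_strong (Fb : Type) [Field Fb] [Algebra F0 Fb] [Algebra Qb Fb] [CharZero Fb]
    [DecidableEq Fb] [IsAlgClosure F0 Fb] (a b : ℚ) (ha : a ≠ 0) (hb : b ≠ 0)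
    (hab : 4 * a ^ 3 + 27 * b ^ 2 ≠ 0) :
    ∃ t : Fb, t ≠ 0 ∧ t ^ 2 - 11 * t - 1 ≠ 0 ∧ Transcendental Qb t ∧
      algebraMap F0 Fb RatFunc.X ∈ Qb⟮t⟯ ∧ (∀ x : Fb, IsAlgebraic ↥Qb⟮t⟯ x) ∧
      ∀ z : Fb, z ∈ OmegaF Fb (lamC a) (lamC b) 5 ↔ z ∈ Mfield Qb t := by
  have hcl : IsAlgClosed Fb := IsAlgClosure.isAlgClosed F0
  -- the parameter
  obtain ⟨lam, hlam_def⟩ : ∃ lam : Fb, lam = algebraMap F0 Fb RatFunc.X := ⟨_, rfl⟩
  have hltr : Transcendental Qb lam := hlam_def ▸ transcendental_lam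
  have hlam0 : lam ≠ 0 := fun h => hltr (h ▸ isAlgebraic_zero)
  have haQ : (a : Qb) ≠ 0 := by exact_mod_cast ha
  have hbQ : (b : Qb) ≠ 0 := by exact_mod_cast hb
  have haF : algebraMap Qb Fb (a : Qb) ≠ 0 := (_root_.map_ne_zero _).mpr haQ
  have hbF : algebraMap Qb Fb (b : Qb) ≠ 0 := (_root_.map_ne_zero _).mpr hbQ
  -- the curve
  obtain ⟨W, hW_def⟩ : ∃ W : WeierstrassCurve Fb, W = ((genW (lamC a) (lamC b)).toAffine⁄Fb) :=
    ⟨_, rfl⟩
  have hW : W = short (algebraMap Qb Fb (a : Qb) * lam) (algebraMap Qb Fb (b : Qb) * lam) := by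
    rw [hW_def, hlam_def]; exact baseChange_genW a b
  -- its discriminant
  have hΔ : W.Δ ≠ 0 := by
    rw [hW]
    have e : (short (algebraMap Qb Fb (a : Qb) * lam) (algebraMap Qb Fb (b : Qb) * lam)).Δ =
        -16 * lam ^ 2 * (4 * algebraMap Qb Fb (a : Qb) ^ 3 * lam
          + 27 * algebraMap Qb Fb (b : Qb) ^ 2) := by
      simp only [short, WeierstrassCurve.Δ, WeierstrassCurve.b₂, WeierstrassCurve.b₄,
        WeierstrassCurve.b₆, WeierstrassCurve.b₈]
      ring
    rw [e]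
    refine mul_ne_zero (mul_ne_zero (by norm_num) (pow_ne_zero _ hlam0)) ?_
    intro h0
    -- `lam` would be a constant
    apply hltr
    have hl : lam = algebraMap Qb Fb (-(27 * (b : Qb) ^ 2) / (4 * (a : Qb) ^ 3)) := by
      rw [map_div₀, map_neg, map_mul, map_mul, map_pow, map_pow, map_ofNat, map_ofNat,
        eq_div_iff (mul_ne_zero (by norm_num) (pow_ne_zero _ haF))]
      linear_combination h0
    rw [hl]
    exact isAlgebraic_algebraMap _
  -- a point of order `5`
  obtain ⟨P0, hP0⟩ := Fermat.Agent.EC.Tor.Main.exists_addOrderOf_eq_prime_pow W.toAffine hΔ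
    Nat.prime_five (by norm_num) 1
  rw [pow_one] at hP0
  rcases P0 with _ | ⟨x₀, y₀, h₀⟩
  · exfalso
    have h1 : addOrderOf (0 : W.toAffine.Point) = 1 := addOrderOf_zero
    have h2 : (Point.zero : W.toAffine.Point) = 0 := rfl
    rw [h2, h1] at hP0
    omega
  -- its Tate normal form
  obtain ⟨C, t, hr, ht', ht, hC⟩ := exists_tateNF W h₀ hP0
  have hC' : C • short (algebraMap Qb Fb (a : Qb) * lam) (algebraMap Qb Fb (b : Qb) * lam)
      = tateNF t := hW ▸ hC
  have hD : t ^ 2 - 11 * t - 1 ≠ 0 := by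
    intro h0
    have h1 : (C • W).Δ = (tateNF t).Δ := by rw [hC]
    rw [variableChange_Δ, tateNF_Δ, h0, mul_zero] at h1
    exact (mul_ne_zero (pow_ne_zero _ (Units.ne_zero _)) hΔ) h1
  -- the field facts of `EParam`
  have hlam_t : lam ∈ Qb⟮t⟯ := EParam.lam_mem hr ht' hC' haQ hbQ hlam0
  have hx_t : x₀ ∈ Qb⟮t⟯ := EParam.x_mem hr ht' hC' haQ hbQ hlam0
  have ht_lx : t ∈ adjoin Qb ({lam, x₀} : Set Fb) := EParam.t_mem hr ht' ht hC'
  have httr : Transcendental Qb t := EParam.transcendental_t hr ht' hC' haQ hbQ hlam0 hltr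
  have halg : ∀ x : Fb, IsAlgebraic ↥Qb⟮t⟯ x :=
    isAlgebraic_of_lam_mem Qb⟮t⟯ (hlam_def ▸ hlam_t)
  refine ⟨t, ht, hD, httr, hlam_def ▸ hlam_t, halg, ?_⟩
  -- the transport of points
  obtain ⟨e, he⟩ := exists_pointEquiv_of_smul_eq C hC
  -- `P0` as an element of `U`
  have h5P0 : (5 : ℕ) • (Point.some x₀ y₀ h₀ : W.toAffine.Point) = 0 := by
    rw [← hP0]; exact addOrderOf_nsmul_eq_zero _
  -- membership in `U`
  have hUmem : ∀ P : W.toAffine.Point, (5 : ℕ) • P = 0 →
      P ∈ Submodule.torsionBy ℤ W.toAffine.Point ((5 : ℕ) : ℤ) := by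
    intro P hP
    rw [Submodule.mem_torsionBy_iff, natCast_zsmul]
    exact hP
  have hUmem' : ∀ P : W.toAffine.Point,
      P ∈ Submodule.torsionBy ℤ W.toAffine.Point ((5 : ℕ) : ℤ) → (5 : ℕ) • P = 0 := by
    intro P hP
    rw [Submodule.mem_torsionBy_iff, natCast_zsmul] at hP
    exact hP
  subst hW_def
  -- the two fields
  have hQbΩ : ∀ z : Qb, algebraMap Qb Fb z ∈ (OmegaF Fb (lamC a) (lamC b) 5).toSubfield := by
    intro z
    exact subset_adjoin F0 _ (Or.inl ⟨z, rfl⟩)
  obtain ⟨Ω', hΩ'⟩ : ∃ Ω' : IntermediateField Qb Fb,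
      Ω' = (OmegaF Fb (lamC a) (lamC b) 5).toSubfield.toIntermediateField hQbΩ := ⟨_, rfl⟩
  have hΩ'mem : ∀ z : Fb, z ∈ Ω' ↔ z ∈ OmegaF Fb (lamC a) (lamC b) 5 := by
    intro z; rw [hΩ']; exact Iff.rfl
  have hlamΩ : lam ∈ Ω' := by
    rw [hΩ'mem, hlam_def]; exact (OmegaF Fb (lamC a) (lamC b) 5).algebraMap_mem _
  have hxU : ∀ P : ((genW (lamC a) (lamC b)).toAffine⁄Fb).Point, (5 : ℕ) • P = 0 →
      xOf P ∈ Ω' := by
    intro P hP
    rw [hΩ'mem]
    exact subset_adjoin F0 _ (Or.inr ⟨⟨P, hUmem P hP⟩, rfl⟩)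
  have hx₀Ω : x₀ ∈ Ω' := hxU _ h5P0
  have htΩ : t ∈ Ω' := by
    have hle : adjoin Qb ({lam, x₀} : Set Fb) ≤ Ω' := by
      rw [adjoin_le_iff]
      rintro z (rfl | rfl)
      · exact hlamΩ
      · exact hx₀Ω
    exact hle ht_lx
  have htM : t ∈ Mfield Qb t := subset_adjoin Qb _ (Set.mem_insert _ _)
  have hlamM : lam ∈ Mfield Qb t := by
    have hle : Qb⟮t⟯ ≤ Mfield Qb t := by
      rw [adjoin_le_iff]
      rintro z rfl
      exact htM
    exact hle hlam_t
  have hF0M : ∀ f : F0, algebraMap F0 Fb f ∈ (Mfield Qb t).toSubfield :=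
    algebraMap_mem_of_lam_mem (Mfield Qb t) (hlam_def ▸ hlamM)
  obtain ⟨M', hM'⟩ : ∃ M' : IntermediateField F0 Fb,
      M' = (Mfield Qb t).toSubfield.toIntermediateField hF0M := ⟨_, rfl⟩
  have hM'mem : ∀ z : Fb, z ∈ M' ↔ z ∈ Mfield Qb t := by
    intro z; rw [hM']; exact Iff.rfl
  intro z
  constructor
  · -- `Ω ≤ M`
    intro hz
    rw [← hM'mem]
    have hle : OmegaF Fb (lamC a) (lamC b) 5 ≤ M' := by
      rw [OmegaF, adjoin_le_iff]
      rintro y (⟨c, rfl⟩ | ⟨P, rfl⟩)
      · exact (hM'mem _).mpr ((Mfield Qb t).algebraMap_mem c)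
      · rw [SetLike.mem_coe, hM'mem]
        have h5P := hUmem' _ P.2
        obtain ⟨Q, hQ⟩ : ∃ Q, e Q = (P : ((genW (lamC a) (lamC b)).toAffine⁄Fb).Point) :=
          ⟨e.symm P, e.apply_symm_apply _⟩
        have h5Q : (5 : ℕ) • Q = 0 := by
          apply e.injective
          rw [map_nsmul, hQ, h5P, map_zero]
        rw [← hQ]
        rcases Q with _ | ⟨X, Y, hXY⟩
        · have h2 : (Point.zero : (tateNF t).toAffine.Point) = 0 := rfl
          rw [h2, map_zero]
          exact (Mfield Qb t).zero_mem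
        · obtain ⟨h', heq⟩ := he X Y hXY
          rw [heq]
          change vcX C X ∈ Mfield Qb t
          rw [EParam.vcX_mem_iff hr ht' hC' haQ hbQ hlam0 (Mfield Qb t) htM]
          exact subset_adjoin Qb _ (Set.mem_insert_of_mem _ ⟨_, h5Q, rfl⟩)
    exact hle hz
  · -- `M ≤ Ω`
    intro hz
    rw [← hΩ'mem]
    have hle : Mfield Qb t ≤ Ω' := by
      rw [Mfield, adjoin_le_iff]
      rintro y (rfl | ⟨Q, h5Q, rfl⟩)
      · exact htΩ
      · rcases Q with _ | ⟨X, Y, hXY⟩
        · exact Ω'.zero_mem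
        · obtain ⟨h', heq⟩ := he X Y hXY
          change X ∈ Ω'
          rw [← EParam.vcX_mem_iff hr ht' hC' haQ hbQ hlam0 Ω' htΩ]
          have h5P : (5 : ℕ) • e (Point.some X Y hXY) = 0 := by
            rw [← map_nsmul, h5Q, map_zero]
          have := hxU _ h5P
          rw [heq] at this
          exact this
    exact hle hz

/-- **`EOmega`** (open input 3 of the leaf E assembly, finding #1478). -/
theorem eOmega : EOmega := by
  intro Fb _ _ _ _ _ _ a b ha hb hab
  obtain ⟨t, ht, hD, htr, -, halg, hiff⟩ := eOmega_strong Fb a b ha hb hab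
  exact ⟨t, ht, hD, htr, halg, hiff⟩

end Fermat.Agent.SW.K1c.EOmegaProof

namespace Fermat.Agent.SW.K1c.EOmegaProof

/-- Leaf E from the function-field input `ECore1` alone. -/
theorem leafE_of_eCore1 (h1 : Fermat.Agent.SW.K1c.EContract.ECore1) :
    Fermat.Agent.SW.K1.Leaves.LeafE :=
  Fermat.Agent.SW.K1c.ELeaf.leafE_of h1 eOmega

end Fermat.Agent.SW.K1c.EOmegaProof
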